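import Mathlib
import Fermat.Prelude.Def_FLTPrelim_GaloisRep
import Fermat.Agent.S51.Torsion3

/-!
# Division polynomials: counting `n`-torsion (A1c)

Given the link `n • (x, y) = 0 ↔ preΨ'ₙ(x) = 0` between the group law and the division
polynomials (hypothesis `TorsionIff`, proved elsewhere), we show for odd `n` with `(n : F) ≠ 0`:

* `{P | n • P = 0}` is finite with at most `n²` elements;
* over an algebraically closed field, for `n > 2` and `Δ ≠ 0`, there is a nonzero point killed by
  `n`;
* the corresponding statements for `Submodule.torsionBy ℤ W.Point n` (the module used in the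
  frozen statements): nontriviality, `Nat.card ≤ n²`, and `finrank (ZMod p) ≤ 2` for a prime `p`.
-/

set_option autoImplicit false

open WeierstrassCurve WeierstrassCurve.Affine Polynomial

namespace Fermat.Agent.DivPoly.Count

variable {F : Type*} [Field F] [DecidableEq F] {W : Affine F}

/-- The link between the group law and the division polynomials, for a fixed `n`. -/
def TorsionIff (W : Affine F) (n : ℕ) : Prop :=
  ∀ (x y : F) (h : W.Nonsingular x y),
    n • Point.some x y h = 0 ↔ (WeierstrassCurve.preΨ' W n).eval x = 0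

omit [DecidableEq F] in
theorem two_mul_natDegree_add_one {n : ℕ} (hn : Odd n) (hnF : (n : F) ≠ 0) :
    2 * (WeierstrassCurve.preΨ' W n).natDegree + 1 = n ^ 2 := by
  rw [WeierstrassCurve.natDegree_preΨ' W hnF, if_neg (Nat.not_even_iff_odd.mpr hn)]
  obtain ⟨k, rfl⟩ := hn
  have h1 : (2 * k + 1) ^ 2 - 1 = 2 * (2 * k ^ 2 + 2 * k) := by
    have : (2 * k + 1) ^ 2 = 2 * (2 * k ^ 2 + 2 * k) + 1 := by ring
    omega
  rw [h1, Nat.mul_div_cancel_left _ two_pos]
  ring

/-- The `n`-torsion is finite with at most `n²` points (`n` odd, invertible in `F`). -/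
theorem torsion_finite_ncard_le {n : ℕ} (hn : Odd n) (hnF : (n : F) ≠ 0)
    (htor : TorsionIff W n) :
    {P : W.Point | n • P = 0}.Finite ∧ {P : W.Point | n • P = 0}.ncard ≤ n ^ 2 := by
  have h := Fermat.Agent.S51.finite_and_ncard_le_of_forall_eval_eq_zero (W := W)
    (WeierstrassCurve.preΨ' W n) (WeierstrassCurve.preΨ'_ne_zero W hnF)
    {P : W.Point | n • P = 0} (fun x y h hP => (htor x y h).mp hP)
  rw [two_mul_natDegree_add_one hn hnF] at h
  exact h

/-- Over an algebraically closed field there is a nonzero point killed by `n`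
(`n > 2` odd, invertible in `F`, `Δ ≠ 0`). -/
theorem exists_torsion_point [IsAlgClosed F] {n : ℕ} (h2 : 2 < n) (hnF : (n : F) ≠ 0)
    (hΔ : W.Δ ≠ 0) (htor : TorsionIff W n) :
    ∃ P : W.Point, P ≠ 0 ∧ n • P = 0 := by
  have hdeg : (WeierstrassCurve.preΨ' W n).degree ≠ 0 := by
    have hpos := WeierstrassCurve.natDegree_preΨ'_pos W h2 hnF
    rw [degree_eq_natDegree (WeierstrassCurve.preΨ'_ne_zero W hnF)]
    exact_mod_cast hpos.ne'
  obtain ⟨x, hx⟩ := IsAlgClosed.exists_root _ hdeg
  obtain ⟨y, hy⟩ := Fermat.Agent.S51.exists_equation W x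
  have h : W.Nonsingular x y := (equation_iff_nonsingular_of_Δ_ne_zero hΔ).mp hy
  exact ⟨Point.some x y h, Point.some_ne_zero h, (htor x y h).mpr hx⟩

section torsionBy

/-- membership in `torsionBy ℤ _ n` in terms of `nsmul`. -/
theorem mem_torsionBy_iff_nsmul {n : ℕ} (P : W.Point) :
    P ∈ Submodule.torsionBy ℤ W.Point (n : ℤ) ↔ n • P = 0 := by
  rw [Submodule.mem_torsionBy_iff, natCast_zsmul]

theorem nontrivial_torsionBy [IsAlgClosed F] {n : ℕ} (h2 : 2 < n) (hnF : (n : F) ≠ 0)
    (hΔ : W.Δ ≠ 0) (htor : TorsionIff W n) :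
    Nontrivial (Submodule.torsionBy ℤ W.Point (n : ℤ)) := by
  obtain ⟨P, hP0, hP⟩ := exists_torsion_point h2 hnF hΔ htor
  refine ⟨⟨⟨P, (mem_torsionBy_iff_nsmul P).mpr hP⟩, 0, ?_⟩⟩
  intro h
  exact hP0 (congrArg Subtype.val h)

theorem finite_torsionBy {n : ℕ} (hn : Odd n) (hnF : (n : F) ≠ 0) (htor : TorsionIff W n) :
    Finite (Submodule.torsionBy ℤ W.Point (n : ℤ)) := by
  have h := (torsion_finite_ncard_le hn hnF htor).1
  have : ((Submodule.torsionBy ℤ W.Point (n : ℤ) : Submodule ℤ W.Point) : Set W.Point) =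
      {P : W.Point | n • P = 0} := by
    ext P; exact mem_torsionBy_iff_nsmul P
  exact (this ▸ h : ((Submodule.torsionBy ℤ W.Point (n : ℤ) : Submodule ℤ W.Point) :
    Set W.Point).Finite).to_subtype

theorem card_torsionBy_le {n : ℕ} (hn : Odd n) (hnF : (n : F) ≠ 0) (htor : TorsionIff W n) :
    Nat.card (Submodule.torsionBy ℤ W.Point (n : ℤ)) ≤ n ^ 2 := by
  have h := (torsion_finite_ncard_le hn hnF htor).2
  have : ((Submodule.torsionBy ℤ W.Point (n : ℤ) : Submodule ℤ W.Point) : Set W.Point) =
      {P : W.Point | n • P = 0} := by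
    ext P; exact mem_torsionBy_iff_nsmul P
  rw [← this] at h
  exact h

end torsionBy

section finrank

/-- A finite `ZMod p`-vector space with at most `p²` elements has dimension at most `2`. -/
theorem finrank_le_two_of_card_le {p : ℕ} [hp : Fact p.Prime] {V : Type*} [AddCommGroup V]
    [Module (ZMod p) V] [Finite V] (hcard : Nat.card V ≤ p ^ 2) :
    Module.finrank (ZMod p) V ≤ 2 := by
  classical
  have : Fintype V := Fintype.ofFinite V
  have hc : Fintype.card V = p ^ Module.finrank (ZMod p) V := by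
    have := Module.card_eq_pow_finrank (K := ZMod p) (V := V)
    rwa [ZMod.card] at this
  rw [Nat.card_eq_fintype_card, hc] at hcard
  exact (Nat.pow_le_pow_iff_right hp.out.one_lt).mp hcard

/-- In a `ZMod p`-vector space of dimension at most `2`, a submodule which is neither `⊥` nor `⊤`
has dimension `1` and the ambient space has dimension `2`. -/
theorem finrank_eq_of_proper {p : ℕ} [hp : Fact p.Prime] {V : Type*} [AddCommGroup V]
    [Module (ZMod p) V] [Finite V] (hV : Module.finrank (ZMod p) V ≤ 2)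
    (N : Submodule (ZMod p) V) (hbot : N ≠ ⊥) (htop : N ≠ ⊤) :
    Module.finrank (ZMod p) N = 1 ∧ Module.finrank (ZMod p) V = 2 := by
  have hfin : Module.Finite (ZMod p) V := Module.Finite.of_finite
  have h1 : Module.finrank (ZMod p) N < Module.finrank (ZMod p) V := Submodule.finrank_lt htop
  have h2 : 0 < Module.finrank (ZMod p) N := by
    rw [Module.finrank_pos_iff_exists_ne_zero]
    obtain ⟨x, hxN, hx0⟩ := (Submodule.ne_bot_iff N).mp hbot
    exact ⟨⟨x, hxN⟩, fun h => hx0 (congrArg Subtype.val h)⟩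
  omega

end finrank

end Fermat.Agent.DivPoly.Count
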