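import Mathlib

/-!
# A1a-E2: the universal normalised EDS and transfer to arbitrary commutative rings

`U = ℤ[b, c, d] = MvPolynomial (Fin 3) ℤ`, `Wu n = normEDS (X 0) (X 1) (X 2) n`.

* `normEDS_int`: `normEDS 2 3 2 n = n`.
* `Wu_ne_zero`: `Wu n ≠ 0` for `n ≠ 0`.
* `Wu_neg`, `Wu_one`, `Wu_hO`, `Wu_hE`, `Wu_rel_even`, `Wu_rel_odd`: the inputs of the abstract
  Ward / elliptic net theorem, for `Wu`.
* `evalHom_Wu`, `normEDS_eq_eval₂`: every `normEDS b c d` is a specialisation of `Wu`.
* given `hward : WardRel Wu` (the Ward relation in the universal ring):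
  `normEDS_rel_of_univ`, `normEDS_dvd_mul_of_univ`, `preNormEDS_somos_of_univ`,
  `preΨ_somos_of_univ` in any commutative ring.
-/

namespace Fermat.Agent.DivPoly.Univ

open MvPolynomial

/-- `normEDS 2 3 2` is the identity sequence on the naturals. -/
theorem normEDS_int_nat (n : ℕ) : normEDS (2 : ℤ) 3 2 (n : ℤ) = n := by
  induction n using normEDSRec with
  | zero => simp
  | one => simp
  | two => simp
  | three => simp
  | four => simp
  | even m h1 h2 h3 h4 h5 =>
    have h := normEDS_even (2 : ℤ) 3 2 ((m : ℤ) + 3)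
    have e1 : ((m : ℤ) + 3 - 1) = ((m + 2 : ℕ) : ℤ) := by push_cast; ring
    have e2 : ((m : ℤ) + 3) = ((m + 3 : ℕ) : ℤ) := by push_cast; ring
    have e3 : ((m : ℤ) + 3 + 2) = ((m + 5 : ℕ) : ℤ) := by push_cast; ring
    have e4 : ((m : ℤ) + 3 - 2) = ((m + 1 : ℕ) : ℤ) := by push_cast; ring
    have e5 : ((m : ℤ) + 3 + 1) = ((m + 4 : ℕ) : ℤ) := by push_cast; ring
    rw [e1, e3, e4, e5] at h
    rw [e2] at h
    rw [h1, h2, h3, h4, h5] at h
    have e6 : ((2 * (m + 3) : ℕ) : ℤ) = 2 * ((m + 3 : ℕ) : ℤ) := by push_cast; ring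
    rw [e6]
    have : normEDS (2 : ℤ) 3 2 (2 * ((m + 3 : ℕ) : ℤ)) * 2 = (2 * ((m + 3 : ℕ) : ℤ)) * 2 := by
      rw [h]; push_cast; ring
    exact mul_right_cancel₀ (by norm_num) this
  | odd m h1 h2 h3 h4 =>
    have h := normEDS_odd (2 : ℤ) 3 2 ((m : ℤ) + 2)
    have e1 : ((m : ℤ) + 2 + 2) = ((m + 4 : ℕ) : ℤ) := by push_cast; ring
    have e2 : ((m : ℤ) + 2) = ((m + 2 : ℕ) : ℤ) := by push_cast; ring
    have e3 : ((m : ℤ) + 2 - 1) = ((m + 1 : ℕ) : ℤ) := by push_cast; ring
    have e4 : ((m : ℤ) + 2 + 1) = ((m + 3 : ℕ) : ℤ) := by push_cast; ring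
    rw [e1, e3, e4] at h
    rw [e2] at h
    rw [h1, h2, h3, h4] at h
    have e6 : ((2 * (m + 2) + 1 : ℕ) : ℤ) = 2 * ((m + 2 : ℕ) : ℤ) + 1 := by push_cast; ring
    rw [e6, h]; push_cast; ring

/-- `normEDS 2 3 2` is the identity sequence. -/
theorem normEDS_int (n : ℤ) : normEDS (2 : ℤ) 3 2 n = n := by
  induction n using Int.negInduction with
  | nat n => exact normEDS_int_nat n
  | neg ih n => rw [normEDS_neg, ih]

/-- The universal coefficient ring `ℤ[b, c, d]`. -/
abbrev U : Type := MvPolynomial (Fin 3) ℤ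

/-- The universal normalised EDS. -/
noncomputable def Wu (n : ℤ) : U := normEDS (X 0) (X 1) (X 2) n

/-- The specialisation homomorphism `ℤ[b, c, d] → R`. -/
noncomputable def evalHom {R : Type*} [CommRing R] (b c d : R) : U →+* R :=
  eval₂Hom (Int.castRingHom R) ![b, c, d]

@[simp] theorem evalHom_X0 {R : Type*} [CommRing R] (b c d : R) : evalHom b c d (X 0) = b := by
  simp [evalHom]

@[simp] theorem evalHom_X1 {R : Type*} [CommRing R] (b c d : R) : evalHom b c d (X 1) = c := by
  simp [evalHom]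

@[simp] theorem evalHom_X2 {R : Type*} [CommRing R] (b c d : R) : evalHom b c d (X 2) = d := by
  simp [evalHom]

/-- (c) every normalised EDS is a specialisation of the universal one. -/
theorem evalHom_Wu {R : Type*} [CommRing R] (b c d : R) (n : ℤ) :
    evalHom b c d (Wu n) = normEDS b c d n := by
  rw [Wu, map_normEDS, evalHom_X0, evalHom_X1, evalHom_X2]

theorem normEDS_eq_eval₂ {R : Type*} [CommRing R] (b c d : R) (n : ℤ) :
    normEDS b c d n = eval₂Hom (Int.castRingHom R) ![b, c, d] (Wu n) :=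
  (evalHom_Wu b c d n).symm

/-- (b) the universal EDS never vanishes at a nonzero index. -/
theorem Wu_ne_zero {n : ℤ} (hn : n ≠ 0) : Wu n ≠ 0 := by
  intro h
  have h2 := evalHom_Wu (2 : ℤ) 3 2 n
  rw [h, map_zero, normEDS_int] at h2
  exact hn h2.symm

theorem Wu_zero : Wu 0 = 0 := by simp [Wu]
theorem Wu_one : Wu 1 = 1 := by simp [Wu]
theorem Wu_two : Wu 2 = X 0 := by simp [Wu]
theorem Wu_three : Wu 3 = X 1 := by simp [Wu]
theorem Wu_four : Wu 4 = X 2 * X 0 := by simp [Wu]
theorem Wu_neg (n : ℤ) : Wu (-n) = -Wu n := by simp [Wu]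

/-- odd doubling relation, in the shape of helper4's `hO`. -/
theorem Wu_hO (k : ℤ) : Wu (2 * k + 1) = Wu (k + 2) * Wu k ^ 3 - Wu (k - 1) * Wu (k + 1) ^ 3 := by
  simp only [Wu]; exact normEDS_odd _ _ _ k

/-- even doubling relation, in the shape of helper4's `hE`. -/
theorem Wu_hE (k : ℤ) : Wu (2 * k) * Wu 2 =
    Wu (k - 1) ^ 2 * Wu k * Wu (k + 2) - Wu (k - 2) * Wu k * Wu (k + 1) ^ 2 := by
  rw [Wu_two]; simp only [Wu]; exact normEDS_even _ _ _ k

/-- The Ward relation for a sequence. -/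
def WardRel {R : Type*} [CommRing R] (W : ℤ → R) : Prop :=
  ∀ m n : ℤ, W (m + n) * W (m - n) = W (m + 1) * W (m - 1) * W n ^ 2 - W (n + 1) * W (n - 1) * W m ^ 2

/-- (d) the Ward relation in any commutative ring, from the universal one. -/
theorem normEDS_rel_of_univ (hward : WardRel Wu) {R : Type*} [CommRing R] (b c d : R) (m n : ℤ) :
    normEDS b c d (m + n) * normEDS b c d (m - n) =
      normEDS b c d (m + 1) * normEDS b c d (m - 1) * normEDS b c d n ^ 2 -
        normEDS b c d (n + 1) * normEDS b c d (n - 1) * normEDS b c d m ^ 2 := by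
  have h := congrArg (evalHom b c d) (hward m n)
  simpa only [map_mul, map_sub, map_pow, evalHom_Wu] using h

/-- the even relator of `Wu` vanishes (input shape of the elliptic net theorem). -/
theorem Wu_rel_even (m : ℤ) : IsEllipticNet.rel Wu (m + 1) (m - 1) 1 0 = 0 := by
  rw [IsEllipticNet.rel_even, Wu_hE, Wu_one]; ring

/-- the odd relator of `Wu` vanishes (input shape of the elliptic net theorem). -/
theorem Wu_rel_odd (m : ℤ) : IsEllipticNet.rel Wu (m + 1) m 1 0 = 0 := by
  rw [IsEllipticNet.rel_odd, Wu_hO, Wu_one]; ring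

theorem Wu_odd : Function.Odd Wu := Wu_neg

/-- An elliptic sequence with `W 1 = 1` satisfies the Ward relation. -/
theorem wardRel_of_isEllipticSequence {R : Type*} [CommRing R] {W : ℤ → R} (h1 : W 1 = 1)
    (h : IsEllipticSequence W) : WardRel W := by
  intro m n
  have h0 := h m n 1
  simp only [IsEllipticNet.rel, add_zero, h1, mul_one] at h0
  linear_combination h0

/-- Plug for an abstract Ward theorem in the shape of helper4's (E1). -/
theorem wardRel_Wu_of_abstract
    (habs : ∀ W : ℤ → U, (∀ n, W (-n) = -W n) → W 1 = 1 → (∀ n, n ≠ 0 → W n ≠ 0) →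
      (∀ k, W (2 * k + 1) = W (k + 2) * W k ^ 3 - W (k - 1) * W (k + 1) ^ 3) →
      (∀ k, W (2 * k) * W 2 =
        W (k - 1) ^ 2 * W k * W (k + 2) - W (k - 2) * W k * W (k + 1) ^ 2) → WardRel W) :
    WardRel Wu :=
  habs Wu Wu_neg Wu_one (fun _ hn => Wu_ne_zero hn) Wu_hO Wu_hE

theorem Wu_dvd_two_mul (k : ℤ) : Wu k ∣ Wu (2 * k) := by
  simp only [Wu]; exact normEDS_dvd_normEDS_two_mul _ _ _ k

theorem Wu_dvd_mul_nat (hward : WardRel Wu) (k : ℤ) (n : ℕ) : Wu k ∣ Wu ((n : ℤ) * k) := by
  induction n using Nat.strong_induction_on with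
  | _ n ih =>
    rcases Nat.even_or_odd' n with ⟨l, rfl | rfl⟩
    · -- even
      rcases Nat.eq_zero_or_pos l with rfl | hl
      · simp [Wu_zero]
      · have h1 : Wu k ∣ Wu ((l : ℤ) * k) := ih l (by omega)
        have h2 : Wu ((l : ℤ) * k) ∣ Wu (2 * ((l : ℤ) * k)) := Wu_dvd_two_mul _
        have e : ((2 * l : ℕ) : ℤ) * k = 2 * ((l : ℤ) * k) := by push_cast; ring
        rw [e]; exact h1.trans h2
    · -- odd
      rcases Nat.eq_zero_or_pos l with rfl | hl
      · simp
      · by_cases hk : k = 0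
        · subst hk; simp
        obtain ⟨A, hA⟩ : Wu k ∣ Wu ((l : ℤ) * k) := ih l (by omega)
        obtain ⟨B, hB⟩ : Wu k ∣ Wu (((l + 1 : ℕ) : ℤ) * k) := ih (l + 1) (by omega)
        have hrel := hward (((l + 1 : ℕ) : ℤ) * k) ((l : ℤ) * k)
        have e1 : ((l + 1 : ℕ) : ℤ) * k + (l : ℤ) * k = ((2 * l + 1 : ℕ) : ℤ) * k := by
          push_cast; ring
        have e2 : ((l + 1 : ℕ) : ℤ) * k - (l : ℤ) * k = k := by push_cast; ring
        rw [e1, e2, hA, hB] at hrel
        have hk0 : Wu k ≠ 0 := Wu_ne_zero hk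
        refine ⟨Wu (((l + 1 : ℕ) : ℤ) * k + 1) * Wu (((l + 1 : ℕ) : ℤ) * k - 1) * A ^ 2 -
          Wu ((l : ℤ) * k + 1) * Wu ((l : ℤ) * k - 1) * B ^ 2, ?_⟩
        apply mul_right_cancel₀ hk0
        rw [hrel]; ring

theorem Wu_dvd_mul (hward : WardRel Wu) (k n : ℤ) : Wu k ∣ Wu (n * k) := by
  induction n using Int.negInduction with
  | nat n => exact Wu_dvd_mul_nat hward k n
  | neg ih n => rw [neg_mul, Wu_neg]; exact (dvd_neg.mpr (Wu_dvd_mul_nat hward k n))

/-- (d) divisibility in any commutative ring, from the universal Ward relation. -/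
theorem normEDS_dvd_mul_of_univ (hward : WardRel Wu) {R : Type*} [CommRing R] (b c d : R)
    (k n : ℤ) : normEDS b c d k ∣ normEDS b c d (n * k) := by
  have h := map_dvd (evalHom b c d) (Wu_dvd_mul hward k n)
  simpa only [evalHom_Wu] using h

/-- In a domain, the `m = 2` Ward relation for `normEDS b c d` with `b ≠ 0` gives the stripped
Somos-4 relation for `preNormEDS (b ^ 4) c d`. -/
theorem preNormEDS_pow_four_somos {R : Type*} [CommRing R] [IsDomain R] {b c d : R} (hb : b ≠ 0)
    (hrel2 : ∀ n : ℤ, normEDS b c d (n + 2) * normEDS b c d (n - 2) =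
      normEDS b c d (n + 1) * normEDS b c d (n - 1) * normEDS b c d 2 ^ 2 -
        normEDS b c d (2 + 1) * normEDS b c d (2 - 1) * normEDS b c d n ^ 2) (n : ℤ) :
    preNormEDS (b ^ 4) c d (n + 2) * preNormEDS (b ^ 4) c d (n - 2) =
      preNormEDS (b ^ 4) c d (n + 1) * preNormEDS (b ^ 4) c d (n - 1) *
        (if Even n then 1 else b ^ 4) - c * preNormEDS (b ^ 4) c d n ^ 2 := by
  have h := hrel2 n
  have h21 : (2 : ℤ) + 1 = 3 := by norm_num
  have h22 : (2 : ℤ) - 1 = 1 := by norm_num
  rw [h21, h22, normEDS_two, normEDS_three, normEDS_one] at h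
  simp only [normEDS, Int.even_add, Int.even_sub, even_two, iff_true, Int.not_even_one,
    iff_false] at h
  by_cases hn : Even n
  · simp only [hn, if_true, not_true_eq_false, if_false] at h ⊢
    have hb2 : b ^ 2 ≠ 0 := pow_ne_zero 2 hb
    apply mul_right_cancel₀ hb2
    linear_combination h
  · simp only [hn, if_false, not_false_eq_true, if_true] at h ⊢
    linear_combination h

/-- Auxiliary universal ring `ℤ[c, d][B]` for the stripped relations. -/
abbrev V : Type := Polynomial (MvPolynomial (Fin 2) ℤ)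

/-- The stripped Somos-4 relator of `preNormEDS B c d` at `n`. -/
def preSomos {R : Type*} [CommRing R] (B c d : R) (n : ℤ) : Prop :=
  preNormEDS B c d (n + 2) * preNormEDS B c d (n - 2) =
    preNormEDS B c d (n + 1) * preNormEDS B c d (n - 1) * (if Even n then 1 else B) -
      c * preNormEDS B c d n ^ 2

theorem preSomos_V (hward : WardRel Wu) (n : ℤ) :
    preSomos (Polynomial.X : V) (Polynomial.C (X 0)) (Polynomial.C (X 1)) n := by
  have hX : (Polynomial.X : V) ≠ 0 := Polynomial.X_ne_zero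
  have h4 := preNormEDS_pow_four_somos (c := (Polynomial.C (X 0) : V))
    (d := (Polynomial.C (X 1) : V)) hX
    (fun n => normEDS_rel_of_univ hward (Polynomial.X : V) _ _ n 2) n
  -- pull back along the injective `expand 4`
  have hinj := Polynomial.expand_injective (R := MvPolynomial (Fin 2) ℤ) (n := 4) (by norm_num)
  have hmap : ∀ k : ℤ, Polynomial.expand (MvPolynomial (Fin 2) ℤ) 4
      (preNormEDS (Polynomial.X : V) (Polynomial.C (X 0)) (Polynomial.C (X 1)) k) =
      preNormEDS ((Polynomial.X : V) ^ 4) (Polynomial.C (X 0)) (Polynomial.C (X 1)) k := by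
    intro k
    rw [map_preNormEDS, Polynomial.expand_X, Polynomial.expand_C, Polynomial.expand_C]
  unfold preSomos
  apply hinj
  rw [map_mul, map_sub, map_mul, map_mul, map_mul, map_pow, hmap, hmap, hmap, hmap, hmap,
    Polynomial.expand_C, apply_ite (Polynomial.expand (MvPolynomial (Fin 2) ℤ) 4), map_one,
    Polynomial.expand_X]
  exact h4

/-- The stripped Somos-4 (`m = 2` Ward) relation for `preNormEDS B c d` in any commutative ring,
for a general parameter `B`. -/
theorem preNormEDS_somos_of_univ (hward : WardRel Wu) {R : Type*} [CommRing R] (B c d : R)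
    (n : ℤ) :
    preNormEDS B c d (n + 2) * preNormEDS B c d (n - 2) =
      preNormEDS B c d (n + 1) * preNormEDS B c d (n - 1) * (if Even n then 1 else B) -
        c * preNormEDS B c d n ^ 2 := by
  let g : V →+* R := Polynomial.eval₂RingHom (eval₂Hom (Int.castRingHom R) ![c, d]) B
  have hgX : g Polynomial.X = B := by simp [g]
  have hg0 : g (Polynomial.C (X 0)) = c := by simp [g]
  have hg1 : g (Polynomial.C (X 1)) = d := by simp [g]
  have hmap : ∀ k : ℤ, g (preNormEDS (Polynomial.X : V) (Polynomial.C (X 0))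
      (Polynomial.C (X 1)) k) = preNormEDS B c d k := by
    intro k
    rw [map_preNormEDS, hgX, hg0, hg1]
  have h := congrArg g (preSomos_V hward n)
  rw [map_mul, map_sub, map_mul, map_mul, map_mul, map_pow, hmap, hmap, hmap, hmap, hmap, hg0,
    apply_ite g, map_one, hgX] at h
  exact h

/-- The `m = 2` Ward relation for the univariate division polynomials `W.preΨ n`
(helper29's shape). -/
theorem preΨ_somos_of_univ (hward : WardRel Wu) {R : Type*} [CommRing R] (W : WeierstrassCurve R)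
    (n : ℤ) :
    W.preΨ (n + 2) * W.preΨ (n - 2) =
      W.preΨ (n + 1) * W.preΨ (n - 1) * (if Even n then 1 else W.Ψ₂Sq ^ 2) -
        W.Ψ₃ * W.preΨ n ^ 2 := by
  simp only [WeierstrassCurve.preΨ]
  exact preNormEDS_somos_of_univ hward _ _ _ n

end Fermat.Agent.DivPoly.Univ
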