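import Mathlib

/-!
# Ward's theorem on elliptic divisibility sequences (abstract form)

Let `W : ℤ → R` be an odd sequence in an integral domain with `W 0 = 0`, `W 1 = 1`, all other terms
nonzero, satisfying the two doubling recurrences
`W (2k+1) = W (k+2) W k ^ 3 - W (k-1) W (k+1) ^ 3` and
`W (2k) W 2 = W (k-1)^2 W k W (k+2) - W (k-2) W k W (k+1)^2`.
Then `W (m+n) W (m-n) = W (m+1) W (m-1) W n ^ 2 - W (n+1) W (n-1) W m ^ 2` for all `m n : ℤ`.
-/

set_option autoImplicit false

namespace Fermat.Agent.DivPoly.Ward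

variable {R : Type*} [CommRing R] (W : ℤ → R)

/-- `A k = W (k+1) W (k-1)` -/
def A (k : ℤ) : R := W (k + 1) * W (k - 1)

/-- `B k = W k ^ 2` -/
def B (k : ℤ) : R := W k ^ 2

/-- the `2 × 2` minor `D a b = A a * B b - A b * B a` -/
def D (a b : ℤ) : R := A W a * B W b - A W b * B W a

/-- the elliptic relation (with `W 1 = 1`) -/
def Rel (m n : ℤ) : Prop := W (m + n) * W (m - n) = D W m n

lemma pluecker (a b c d : ℤ) :
    D W a b * D W c d = D W a c * D W b d - D W a d * D W b c := by
  unfold D; ring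

lemma D_two_combo (a b : ℤ) :
    B W b * D W a 2 - B W a * D W b 2 = B W 2 * D W a b := by
  unfold D; ring

lemma D_self (a : ℤ) : D W a a = 0 := by unfold D; ring

lemma D_swap (a b : ℤ) : D W b a = -D W a b := by unfold D; ring

variable {W}

section Symm

variable (hodd : ∀ n, W (-n) = -W n)
include hodd

lemma A_neg (k : ℤ) : A W (-k) = A W k := by
  unfold A
  rw [show -k + 1 = -(k - 1) by ring, show -k - 1 = -(k + 1) by ring, hodd, hodd]
  ring

lemma B_neg (k : ℤ) : B W (-k) = B W k := by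
  unfold B
  rw [hodd]; ring

lemma D_neg_left (a b : ℤ) : D W (-a) b = D W a b := by
  unfold D; rw [A_neg hodd, B_neg hodd]

lemma D_neg_right (a b : ℤ) : D W a (-b) = D W a b := by
  unfold D; rw [A_neg hodd, B_neg hodd]

lemma Rel_neg_left {m n : ℤ} (h : Rel W m n) : Rel W (-m) n := by
  unfold Rel at h ⊢
  rw [D_neg_left hodd, ← h, show -m + n = -(m - n) by ring, show -m - n = -(m + n) by ring,
    hodd, hodd]
  ring

lemma Rel_neg_right {m n : ℤ} (h : Rel W m n) : Rel W m (-n) := by
  unfold Rel at h ⊢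
  rw [D_neg_right hodd, ← h, show m + -n = m - n by ring, show m - -n = m + n by ring]
  ring

lemma Rel_swap {m n : ℤ} (h : Rel W m n) : Rel W n m := by
  unfold Rel at h ⊢
  rw [D_swap, ← h, show n + m = m + n by ring, show n - m = -(m - n) by ring, hodd]
  ring

end Symm

section Steps

variable (hO : ∀ k, W (2 * k + 1) = D W (k + 1) k) (hE : ∀ k, W (2 * k) * W 2 = D W (k + 1) (k - 1))

include hO in
lemma odd_step (k j : ℤ) (e1 : Rel W (k + 1) (j + 1)) (e2 : Rel W k j) (e3 : Rel W (k + 1) j)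
    (e4 : Rel W k (j + 1)) : Rel W (k + j + 1) (k - j) := by
  unfold Rel at *
  rw [show k + j + 1 + (k - j) = 2 * k + 1 by ring, show k + j + 1 - (k - j) = 2 * j + 1 by ring,
    hO k, hO j, pluecker, ← e1, ← e2, ← e3, ← e4]
  unfold D A B
  rw [show k + 1 + (j + 1) = k + j + 1 + 1 by ring, show k + 1 - (j + 1) = k - j by ring,
    show k + 1 + j = k + j + 1 by ring, show k + 1 - j = k - j + 1 by ring,
    show k + (j + 1) = k + j + 1 by ring, show k - (j + 1) = k - j - 1 by ring,
    show k + j + 1 - 1 = k + j by ring]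
  ring

include hE in
lemma even_step (k j : ℤ) (hW2 : W 2 ≠ 0) [IsDomain R] (e1 : Rel W (k + 1) (j + 1))
    (e2 : Rel W (k - 1) (j - 1)) (e3 : Rel W (k + 1) (j - 1)) (e4 : Rel W (k - 1) (j + 1))
    (e5 : Rel W (k + j) 2) (e6 : Rel W (k - j) 2) : Rel W (k + j) (k - j) := by
  unfold Rel at *
  have hB2 : B W 2 ≠ 0 := pow_ne_zero 2 hW2
  apply mul_left_cancel₀ hB2
  rw [← D_two_combo, ← e5, ← e6]
  have h1 := hE k
  have h2 := hE j
  have hp := pluecker W (k + 1) (k - 1) (j + 1) (j - 1)
  rw [← h1, ← h2, ← e1, ← e2, ← e3, ← e4] at hp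
  rw [show k + j + (k - j) = 2 * k by ring, show k + j - (k - j) = 2 * j by ring]
  rw [show k + 1 + (j + 1) = k + j + 2 by ring, show k + 1 - (j + 1) = k - j by ring,
    show k - 1 + (j - 1) = k + j - 2 by ring, show k - 1 - (j - 1) = k - j by ring,
    show k + 1 + (j - 1) = k + j by ring, show k + 1 - (j - 1) = k - j + 2 by ring,
    show k - 1 + (j + 1) = k + j by ring, show k - 1 - (j + 1) = k - j - 2 by ring] at hp
  unfold B
  linear_combination hp

include hO hE in
lemma s4_step (i : ℤ) (hW2 : W 2 ≠ 0) (hne : W (2 * i - 3) ≠ 0) [IsDomain R] (h1 : W 1 = 1)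
    (r1 : Rel W (i + 2) (i - 1)) (r2 : Rel W (i + 2) (i - 2)) (r3 : Rel W i (i - 3))
    (r4 : Rel W (i + 1) (i - 3)) (r5 : Rel W (2 * i - 2) 2) : Rel W (2 * i) 2 := by
  unfold Rel at *
  -- normalised forms of the known instances
  have S1 : W (2 * i + 2) * W 2 = D W (i + 2) i := by
    have := hE (i + 1)
    rwa [show 2 * (i + 1) = 2 * i + 2 by ring, show i + 1 + 1 = i + 2 by ring,
      show i + 1 - 1 = i by ring] at this
  have S2 : W (2 * i - 3) = D W (i - 1) (i - 2) := by
    have := hO (i - 2)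
    rwa [show 2 * (i - 2) + 1 = 2 * i - 3 by ring, show i - 2 + 1 = i - 1 by ring] at this
  have S3 : W (2 * i + 1) * W 3 = D W (i + 2) (i - 1) := by
    rw [← r1]; congr 2 <;> ring
  have S4 : W (2 * i - 2) * W 2 = D W i (i - 2) := by
    have := hE (i - 1)
    rwa [show 2 * (i - 1) = 2 * i - 2 by ring, show i - 1 + 1 = i by ring,
      show i - 1 - 1 = i - 2 by ring] at this
  have S5 : W (2 * i) * W 4 = D W (i + 2) (i - 2) := by
    rw [← r2]; congr 2 <;> ring
  have S6 : W (2 * i - 1) = D W i (i - 1) := by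
    have := hO (i - 1)
    rwa [show 2 * (i - 1) + 1 = 2 * i - 1 by ring, show i - 1 + 1 = i by ring] at this
  have S7 : W (2 * i + 1) = D W (i + 1) i := hO i
  have S8 : W (2 * i - 4) * W 2 = D W (i - 1) (i - 3) := by
    have := hE (i - 2)
    rwa [show 2 * (i - 2) = 2 * i - 4 by ring, show i - 2 + 1 = i - 1 by ring,
      show i - 2 - 1 = i - 3 by ring] at this
  have S9 : W (2 * i) * W 2 = D W (i + 1) (i - 1) := hE i
  have S10 : W (2 * i - 3) * W 3 = D W i (i - 3) := by
    rw [← r3]; congr 2 <;> ring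
  have S11 : W (2 * i - 2) * W 4 = D W (i + 1) (i - 3) := by
    rw [← r4]; congr 2 <;> ring
  -- the two Somos-5 relations
  have T1 := pluecker W (i + 2) i (i - 1) (i - 2)
  rw [← S1, ← S2, ← S3, ← S4, ← S5, ← S6] at T1
  have T2 := pluecker W (i + 1) i (i - 1) (i - 3)
  rw [← S7, ← S8, ← S9, ← S10, ← S11, ← S6] at T2
  -- the Somos-4 relation one level below
  have T3 : W (2 * i) * W (2 * i - 4) =
      W (2 * i - 1) * W (2 * i - 3) * W 2 ^ 2 - W 3 * W (2 * i - 2) ^ 2 := by
    have := r5
    unfold D A B at this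
    rw [show 2 * i - 2 + 2 = 2 * i by ring, show 2 * i - 2 - 2 = 2 * i - 4 by ring,
      show 2 * i - 2 + 1 = 2 * i - 1 by ring, show 2 * i - 2 - 1 = 2 * i - 3 by ring,
      show (2 : ℤ) + 1 = 3 by norm_num, show (2 : ℤ) - 1 = 1 by norm_num, h1] at this
    linear_combination this
  unfold D A B
  rw [show (2 : ℤ) + 1 = 3 by norm_num, show (2 : ℤ) - 1 = 1 by norm_num, h1]
  have hne2 : W 2 * W (2 * i - 3) ≠ 0 := mul_ne_zero hW2 hne
  apply mul_left_cancel₀ hne2
  linear_combination W (2 * i - 2) * T1 + W (2 * i + 1) * W 2 * T3 - W (2 * i) * T2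

end Steps

section Main

variable [IsDomain R] (hodd : ∀ n, W (-n) = -W n) (h0 : W 0 = 0) (h1 : W 1 = 1)
  (hne : ∀ n, n ≠ 0 → W n ≠ 0)
  (hO' : ∀ k, W (2 * k + 1) = W (k + 2) * W k ^ 3 - W (k - 1) * W (k + 1) ^ 3)
  (hE' : ∀ k, W (2 * k) * W 2 =
    W (k - 1) ^ 2 * W k * W (k + 2) - W (k - 2) * W k * W (k + 1) ^ 2)

include hO' in
lemma hO_D (k : ℤ) : W (2 * k + 1) = D W (k + 1) k := by
  rw [hO' k]
  unfold D A B
  rw [show k + 1 + 1 = k + 2 by ring, show k + 1 - 1 = k by ring]
  ring

include hE' in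
lemma hE_D (k : ℤ) : W (2 * k) * W 2 = D W (k + 1) (k - 1) := by
  rw [hE' k]
  unfold D A B
  rw [show k + 1 + 1 = k + 2 by ring, show k + 1 - 1 = k by ring, show k - 1 + 1 = k by ring,
    show k - 1 - 1 = k - 2 by ring]
  ring

include hodd h0 h1 in
lemma rel_zero (m : ℤ) : Rel W m 0 := by
  unfold Rel D A B
  rw [show (0 : ℤ) + 1 = 1 by norm_num, show (0 : ℤ) - 1 = -1 by norm_num, hodd 1, h0, h1,
    add_zero, sub_zero]
  ring

include h0 h1 in
lemma rel_one (m : ℤ) : Rel W m 1 := by
  unfold Rel D A B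
  rw [show (1 : ℤ) + 1 = 2 by norm_num, show (1 : ℤ) - 1 = 0 by norm_num, h0, h1]
  ring

include h0 in
lemma rel_self (m : ℤ) : Rel W m m := by
  unfold Rel
  rw [D_self, sub_self, h0, mul_zero]

include hodd h0 h1 hne hO' hE' in
theorem rel_nonneg (N : ℕ) : ∀ m n : ℤ, 0 ≤ n → n ≤ m → m + n ≤ N → Rel W m n := by
  induction N using Nat.strong_induction_on with
  | _ N IH =>
  intro m n hn hnm hN
  have hO := hO_D hO'
  have hE := hE_D hE'
  -- the induction hypothesis for unordered nonnegative pairs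
  have ih : ∀ a b : ℤ, 0 ≤ a → 0 ≤ b → a + b < N → Rel W a b := by
    intro a b ha hb hab
    have hlt : (a + b).toNat < N := by omega
    rcases le_total b a with hba | hba
    · exact IH _ hlt a b hb hba (by omega)
    · exact Rel_swap hodd (IH _ hlt b a ha hba (by omega))
  rcases lt_or_eq_of_le hN with hlt | heq
  · exact ih m n (by omega) hn hlt
  rcases eq_or_lt_of_le hn with rfl | hn0
  · exact rel_zero hodd h0 h1 m
  rcases eq_or_lt_of_le (show (1 : ℤ) ≤ n by omega) with rfl | hn1
  · exact rel_one h0 h1 m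
  rcases eq_or_lt_of_le hnm with rfl | hlt
  · exact rel_self h0 n
  have hW2 : W 2 ≠ 0 := hne 2 (by norm_num)
  rcases Int.even_or_odd' (m + n) with ⟨k, hk | hk⟩
  · -- even sum
    obtain ⟨j, hj⟩ : ∃ j, j = k - n := ⟨_, rfl⟩
    have hm : m = k + j := by omega
    have hn' : n = k - j := by omega
    rcases eq_or_lt_of_le (show (2 : ℤ) ≤ n by omega) with hn2 | hn2
    · -- `n = 2`
      obtain ⟨i, hi⟩ : ∃ i, i = k - 1 := ⟨_, rfl⟩
      have hmi : m = 2 * i := by omega
      rw [hmi, ← hn2]
      rcases eq_or_lt_of_le (show (2 : ℤ) ≤ i by omega) with hi2 | hi2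
      · rw [← hi2]
        have := hE 3
        unfold Rel
        norm_num at this ⊢
        exact this
      · exact s4_step hO hE i hW2 (hne _ (by omega)) h1
          (ih _ _ (by omega) (by omega) (by omega)) (ih _ _ (by omega) (by omega) (by omega))
          (ih _ _ (by omega) (by omega) (by omega)) (ih _ _ (by omega) (by omega) (by omega))
          (ih _ _ (by omega) (by omega) (by omega))
    · -- `n ≥ 3`
      have := even_step hE k j hW2
        (ih _ _ (by omega) (by omega) (by omega)) (ih _ _ (by omega) (by omega) (by omega))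
        (ih _ _ (by omega) (by omega) (by omega)) (ih _ _ (by omega) (by omega) (by omega))
        (ih _ _ (by omega) (by omega) (by omega)) (ih _ _ (by omega) (by omega) (by omega))
      rwa [← hm, ← hn'] at this
  · -- odd sum
    obtain ⟨j, hj⟩ : ∃ j, j = k - n := ⟨_, rfl⟩
    have hm : m = k + j + 1 := by omega
    have hn' : n = k - j := by omega
    have := odd_step hO k j
      (ih _ _ (by omega) (by omega) (by omega)) (ih _ _ (by omega) (by omega) (by omega))
      (ih _ _ (by omega) (by omega) (by omega)) (ih _ _ (by omega) (by omega) (by omega))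
    rwa [← hm, ← hn'] at this

include hodd h0 h1 hne hO' hE' in
/-- **Ward's theorem** (abstract form). -/
theorem rel (m n : ℤ) :
    W (m + n) * W (m - n) =
      W (m + 1) * W (m - 1) * W n ^ 2 - W (n + 1) * W (n - 1) * W m ^ 2 := by
  have key : ∀ a b : ℤ, 0 ≤ a → 0 ≤ b → Rel W a b := by
    intro a b ha hb
    rcases le_total b a with hba | hba
    · exact rel_nonneg hodd h0 h1 hne hO' hE' (a + b).toNat a b hb hba (by omega)
    · exact Rel_swap hodd
        (rel_nonneg hodd h0 h1 hne hO' hE' (a + b).toNat b a ha hba (by omega))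
  have all : Rel W m n := by
    rcases le_total 0 m with hm | hm <;> rcases le_total 0 n with hn | hn
    · exact key m n hm hn
    · have := Rel_neg_right hodd (key m (-n) hm (by omega))
      rwa [neg_neg] at this
    · have := Rel_neg_left hodd (key (-m) n (by omega) hn)
      rwa [neg_neg] at this
    · have := Rel_neg_left hodd (Rel_neg_right hodd (key (-m) (-n) (by omega) (by omega)))
      rwa [neg_neg, neg_neg] at this
  unfold Rel D A B at all
  rw [all]

end Main

end Fermat.Agent.DivPoly.Ward
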