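import Mathlib
import Fermat.Agent.DivPoly.Ward
import Fermat.Agent.DivPoly.Univ

/-!
# A1a FINAL: Ward's relation for `normEDS` in any commutative ring (hypothesis-free)

Plugs the abstract Ward theorem (`Fermat.Agent.DivPoly.Ward.rel`, helper4) into the universal
instance and the transfer lemmas of `Fermat.Agent.DivPoly.Univ`.
-/

namespace Fermat.Agent.DivPoly.WardFinal

open Fermat.Agent.DivPoly

/-- Ward's relation in the universal ring `ℤ[b, c, d]`. -/
theorem wardRel_Wu : Univ.WardRel Univ.Wu := fun m n =>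
  Ward.rel Univ.Wu_neg Univ.Wu_zero Univ.Wu_one (fun _ hn => Univ.Wu_ne_zero hn)
    Univ.Wu_hO Univ.Wu_hE m n

/-- **Ward's relation** for `normEDS b c d` in any commutative ring. -/
theorem normEDS_rel {R : Type*} [CommRing R] (b c d : R) (p q : ℤ) :
    normEDS b c d (p + q) * normEDS b c d (p - q) =
      normEDS b c d (p + 1) * normEDS b c d (p - 1) * normEDS b c d q ^ 2 -
        normEDS b c d (q + 1) * normEDS b c d (q - 1) * normEDS b c d p ^ 2 :=
  Univ.normEDS_rel_of_univ wardRel_Wu b c d p q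

/-- `normEDS b c d` is a divisibility sequence, in any commutative ring. -/
theorem normEDS_dvd_mul {R : Type*} [CommRing R] (b c d : R) (k n : ℤ) :
    normEDS b c d k ∣ normEDS b c d (n * k) :=
  Univ.normEDS_dvd_mul_of_univ wardRel_Wu b c d k n

/-- The stripped `m = 2` Ward (Somos-4) relation for `preNormEDS B c d`, general `B`. -/
theorem preNormEDS_somos {R : Type*} [CommRing R] (B c d : R) (n : ℤ) :
    preNormEDS B c d (n + 2) * preNormEDS B c d (n - 2) =
      preNormEDS B c d (n + 1) * preNormEDS B c d (n - 1) * (if Even n then 1 else B) -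
        c * preNormEDS B c d n ^ 2 :=
  Univ.preNormEDS_somos_of_univ wardRel_Wu B c d n

/-- The `m = 2` Ward relation for the univariate division polynomials `W.preΨ n`. -/
theorem preΨ_somos {R : Type*} [CommRing R] (W : WeierstrassCurve R) (n : ℤ) :
    W.preΨ (n + 2) * W.preΨ (n - 2) =
      W.preΨ (n + 1) * W.preΨ (n - 1) * (if Even n then 1 else W.Ψ₂Sq ^ 2) -
        W.Ψ₃ * W.preΨ n ^ 2 :=
  Univ.preΨ_somos_of_univ wardRel_Wu W n

/-- `Link.EDS2 W` in unfolded form (helper29's hypothesis `hE`). -/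
theorem eds2 {R : Type*} [CommRing R] (W : WeierstrassCurve R) :
    ∀ n : ℕ, 3 ≤ n → W.preΨ ((n : ℤ) + 2) * W.preΨ ((n : ℤ) - 2) =
      W.preΨ ((n : ℤ) + 1) * W.preΨ ((n : ℤ) - 1) *
        (if Even (n : ℤ) then 1 else W.Ψ₂Sq ^ 2) - W.Ψ₃ * W.preΨ (n : ℤ) ^ 2 :=
  fun n _ => preΨ_somos W n

end Fermat.Agent.DivPoly.WardFinal
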