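import Fermat.Agent.DivPoly.Torsion
import Fermat.Agent.DivPoly.WardFinal
import Fermat.Agent.DivPoly.Count

/-!
# A1 final: torsion points and division polynomials, hypothesis-free

The two A1a inputs of `Torsion.lean` (`Link.EDS2 W` and `WardRel (psiVal W x y)`) are discharged
with `WardFinal.eds2` and `WardFinal.normEDS_rel`.  The results are then packaged in the shapes the
consumers use (`Count.TorsionIff`, cardinality and nontriviality of `E[n]`).
-/

set_option autoImplicit false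

open WeierstrassCurve WeierstrassCurve.Affine Polynomial

namespace Fermat.Agent.DivPoly.A1Final

variable {F : Type*} [Field F] [DecidableEq F] {W : Affine F}

omit [DecidableEq F] in
/-- Ward's relation for the values `ψ_n(x, y)`. -/
theorem wardRel_psiVal (W : Affine F) (x y : F) : Torsion.WardRel (Torsion.psiVal W x y) :=
  fun p q => WardFinal.normEDS_rel _ _ _ p q

omit [DecidableEq F] in
/-- The `m = 2` family for `preΨ`. -/
theorem eds2 (W : Affine F) : Link.EDS2 W := WardFinal.eds2 W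

/-- `n • P = 0 ↔ ΨSq_n(x(P)) = 0` for `n ≥ 1`. -/
theorem nsmul_eq_zero_iff {x y : F} (h : W.Nonsingular x y) (n : ℕ) (hn : 1 ≤ n) :
    n • Point.some x y h = 0 ↔ (W.ΨSq (n : ℤ)).eval x = 0 :=
  Torsion.nsmul_eq_zero_iff_of (eds2 W) h (wardRel_psiVal W x y) n hn

/-- `n • P = 0 ↔ preΨ_n(x(P)) = 0` for odd `n`. -/
theorem nsmul_eq_zero_iff_preΨ {x y : F} (h : W.Nonsingular x y) {n : ℕ} (hn : Odd n) :
    n • Point.some x y h = 0 ↔ (W.preΨ (n : ℤ)).eval x = 0 :=
  Torsion.nsmul_eq_zero_iff_preΨ_of (eds2 W) h (wardRel_psiVal W x y) hn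

/-- `n • P = 0 ↔ preΨ'_n(x(P)) = 0` for odd `n`. -/
theorem nsmul_eq_zero_iff_preΨ' {x y : F} (h : W.Nonsingular x y) {n : ℕ} (hn : Odd n) :
    n • Point.some x y h = 0 ↔ (W.preΨ' n).eval x = 0 :=
  Torsion.nsmul_eq_zero_iff_preΨ'_of (eds2 W) h (wardRel_psiVal W x y) hn

/-- `n • P = 0 ↔ ΨSq_n(x(P)) = 0` for integer `n`. -/
theorem zsmul_eq_zero_iff {x y : F} (h : W.Nonsingular x y) (n : ℤ) :
    n • Point.some x y h = 0 ↔ (W.ΨSq n).eval x = 0 :=
  Torsion.zsmul_eq_zero_iff_of (eds2 W) h (wardRel_psiVal W x y) n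

/-- integer multiples, odd `n`, `preΨ` form. -/
theorem zsmul_natCast_eq_zero_iff_preΨ {x y : F} (h : W.Nonsingular x y) {n : ℕ} (hn : Odd n) :
    (n : ℤ) • Point.some x y h = 0 ↔ (W.preΨ (n : ℤ)).eval x = 0 := by
  rw [natCast_zsmul]
  exact nsmul_eq_zero_iff_preΨ h hn

/-- The hypothesis of `Count.lean`, discharged. -/
theorem torsionIff (W : Affine F) {n : ℕ} (hn : Odd n) : Count.TorsionIff W n :=
  fun _ _ h => nsmul_eq_zero_iff_preΨ' h hn

/-- The `n`-torsion is finite with at most `n²` points (`n` odd, invertible in `F`). -/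
theorem torsion_finite_ncard_le {n : ℕ} (hn : Odd n) (hnF : (n : F) ≠ 0) :
    {P : W.Point | n • P = 0}.Finite ∧ {P : W.Point | n • P = 0}.ncard ≤ n ^ 2 :=
  Count.torsion_finite_ncard_le hn hnF (torsionIff W hn)

/-- Over an algebraically closed field there is a nonzero point killed by an odd `n > 2`
invertible in `F` (`Δ ≠ 0`). -/
theorem exists_torsion_point [IsAlgClosed F] {n : ℕ} (hn : Odd n) (h2 : 2 < n) (hnF : (n : F) ≠ 0)
    (hΔ : W.Δ ≠ 0) : ∃ P : W.Point, P ≠ 0 ∧ n • P = 0 :=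
  Count.exists_torsion_point h2 hnF hΔ (torsionIff W hn)

theorem nontrivial_torsionBy [IsAlgClosed F] {n : ℕ} (hn : Odd n) (h2 : 2 < n)
    (hnF : (n : F) ≠ 0) (hΔ : W.Δ ≠ 0) :
    Nontrivial (Submodule.torsionBy ℤ W.Point (n : ℤ)) :=
  Count.nontrivial_torsionBy h2 hnF hΔ (torsionIff W hn)

theorem finite_torsionBy {n : ℕ} (hn : Odd n) (hnF : (n : F) ≠ 0) :
    Finite (Submodule.torsionBy ℤ W.Point (n : ℤ)) :=
  Count.finite_torsionBy hn hnF (torsionIff W hn)

theorem card_torsionBy_le {n : ℕ} (hn : Odd n) (hnF : (n : F) ≠ 0) :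
    Nat.card (Submodule.torsionBy ℤ W.Point (n : ℤ)) ≤ n ^ 2 :=
  Count.card_torsionBy_le hn hnF (torsionIff W hn)

end Fermat.Agent.DivPoly.A1Final
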