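-- Program A / Team A1 (helper3): rank of apparition for elliptic sequences over a field.
-- If `m ≥ 2` is the first zero of a (nondegenerate) elliptic sequence `W` with `W 0 = 0`, `W 1 = 1`,
-- then `W n = 0 ↔ m ∣ n`.
import Mathlib

set_option autoImplicit false

namespace Fermat.Agent.DivPoly.Apparition

variable {F : Type*} [Field F] {W : ℤ → F}

/-- The term after the first zero is nonzero. -/
theorem succ_ne_zero (h1 : W 1 = 1)
    (hrel : ∀ p q : ℤ, W (p + q) * W (p - q) =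
      W (p + 1) * W (p - 1) * W q ^ 2 - W (q + 1) * W (q - 1) * W p ^ 2)
    (hN23 : ¬ (W 2 = 0 ∧ W 3 = 0)) (hN34 : ¬ (W 3 = 0 ∧ W 4 = 0))
    {m : ℕ} (hm2 : 2 ≤ m) (hm : W m = 0) (hmin : ∀ k : ℕ, 1 ≤ k → k < m → W k ≠ 0) :
    W ((m : ℤ) + 1) ≠ 0 := by
  intro hm1
  rcases Nat.lt_or_ge m 4 with h4 | h4
  · interval_cases m
    · exact hN23 ⟨by simpa using hm, by simpa using hm1⟩
    · exact hN34 ⟨by simpa using hm, by simpa using hm1⟩
  · have h := hrel ((m : ℤ) - 1) 2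
    have e1 : (m : ℤ) - 1 + 2 = (m : ℤ) + 1 := by ring
    have e2 : (m : ℤ) - 1 + 1 = (m : ℤ) := by ring
    have e3 : (2 : ℤ) + 1 = 3 := by norm_num
    have e4 : (2 : ℤ) - 1 = 1 := by norm_num
    rw [e1, e2, e3, e4, hm1, hm, h1] at h
    have h3 : W 3 ≠ 0 := by simpa using hmin 3 (by norm_num) (by omega)
    have hm' : W ((m : ℤ) - 1) ≠ 0 := by
      have := hmin (m - 1) (by omega) (by omega)
      rwa [Nat.cast_sub (by omega), Nat.cast_one] at this
    have : W 3 * W ((m : ℤ) - 1) ^ 2 = 0 := by linear_combination h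
    exact mul_ne_zero h3 (pow_ne_zero 2 hm') this

/-- Rank of apparition, natural indices. -/
theorem zero_iff_dvd_nat (h0 : W 0 = 0) (h1 : W 1 = 1)
    (hrel : ∀ p q : ℤ, W (p + q) * W (p - q) =
      W (p + 1) * W (p - 1) * W q ^ 2 - W (q + 1) * W (q - 1) * W p ^ 2)
    (hE2 : W 2 = 0 → ∀ k : ℤ, W (2 * k) = 0)
    (hN23 : ¬ (W 2 = 0 ∧ W 3 = 0)) (hN34 : ¬ (W 3 = 0 ∧ W 4 = 0))
    {m : ℕ} (hm2 : 2 ≤ m) (hm : W m = 0) (hmin : ∀ k : ℕ, 1 ≤ k → k < m → W k ≠ 0) (n : ℕ) :
    W n = 0 ↔ m ∣ n := by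
  have hm1 : W ((m : ℤ) + 1) ≠ 0 := succ_ne_zero h1 hrel hN23 hN34 hm2 hm hmin
  have hm1' : W ((m : ℤ) - 1) ≠ 0 := by
    have := hmin (m - 1) (by omega) (by omega)
    rwa [Nat.cast_sub (by omega), Nat.cast_one] at this
  -- Ward's symmetry relation
  have hB : ∀ k : ℤ, W (k + m) * W (k - m) = -(W ((m : ℤ) + 1) * W ((m : ℤ) - 1)) * W k ^ 2 := by
    intro k
    rw [hrel k m, hm]; ring
  induction n using Nat.strong_induction_on with
  | _ n ih =>
    rcases Nat.lt_or_ge n m with hlt | hge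
    · -- `n < m`
      rcases Nat.eq_zero_or_pos n with rfl | hpos
      · simp [h0]
      · constructor
        · intro h; exact absurd h (hmin n hpos hlt)
        · intro h; exact absurd (Nat.le_of_dvd hpos h) (by omega)
    · obtain ⟨n', rfl⟩ := Nat.exists_eq_add_of_le' hge
      rcases Nat.eq_zero_or_pos n' with rfl | hpos'
      · simp [hm]
      -- `n = n' + m` with `n' ≥ 1`
      have ih' := ih n' (by omega)
      by_cases hdvd : m ∣ n' + m
      · -- multiples of `m`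
        refine ⟨fun _ => hdvd, fun _ => ?_⟩
        have hdvd' : m ∣ n' := (Nat.dvd_add_left (dvd_refl m)).mp hdvd
        have hn'0 : W (n' : ℤ) = 0 := ih'.mpr hdvd'
        rcases Nat.lt_or_ge m 3 with h3 | h3
        · -- `m = 2`
          have hm' : m = 2 := by omega
          subst hm'
          obtain ⟨k, hk⟩ := hdvd
          have := hE2 (by simpa using hm) (k : ℤ)
          rw [hk]; push_cast; exact this
        · -- `m ≥ 3`
          have hle : m ≤ n' := Nat.le_of_dvd hpos' hdvd'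
          obtain ⟨n'', rfl⟩ := Nat.exists_eq_add_of_le' hle
          have hdvd'' : m ∣ n'' := (Nat.dvd_add_left (dvd_refl m)).mp hdvd'
          have h := hrel ((n'' : ℤ) + m + 1) ((m : ℤ) - 1)
          have e1 : (n'' : ℤ) + m + 1 + ((m : ℤ) - 1) = ((n'' + m + m : ℕ) : ℤ) := by
            push_cast; ring
          have e2 : (n'' : ℤ) + m + 1 - ((m : ℤ) - 1) = ((n'' + 2 : ℕ) : ℤ) := by
            push_cast; ring
          have e3 : (n'' : ℤ) + m + 1 - 1 = ((n'' + m : ℕ) : ℤ) := by push_cast; ring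
          have e4 : (m : ℤ) - 1 + 1 = (m : ℤ) := by ring
          rw [e1, e2, e3, e4, hn'0, hm] at h
          have hne : W ((n'' + 2 : ℕ) : ℤ) ≠ 0 := by
            intro h2
            have hd := (ih (n'' + 2) (by omega)).mp h2
            have : m ∣ 2 := (Nat.dvd_add_right hdvd'').mp hd
            have := Nat.le_of_dvd (by norm_num) this
            omega
          have hz : W ((n'' + m + m : ℕ) : ℤ) * W ((n'' + 2 : ℕ) : ℤ) = 0 := by
            rw [h]; ring
          exact (mul_eq_zero.mp hz).resolve_right hne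
      · -- non-multiples
        refine ⟨fun h => ?_, fun h => absurd h hdvd⟩
        exfalso
        have hdvd' : ¬ m ∣ n' := fun h' => hdvd ((Nat.dvd_add_left (dvd_refl m)).mpr h')
        have hn' : W (n' : ℤ) ≠ 0 := fun h' => hdvd' (ih'.mp h')
        have hb := hB (n' : ℤ)
        have e : ((n' : ℤ) + m) = ((n' + m : ℕ) : ℤ) := by push_cast; ring
        rw [e, h, zero_mul] at hb
        have : W ((m : ℤ) + 1) * W ((m : ℤ) - 1) * W (n' : ℤ) ^ 2 = 0 := by
          linear_combination hb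
        exact mul_ne_zero (mul_ne_zero hm1 hm1') (pow_ne_zero 2 hn') this

/-- **Rank of apparition**: if `m ≥ 2` is the first zero of a nondegenerate elliptic sequence over
a field, then `W n = 0 ↔ m ∣ n`. -/
theorem zero_iff_dvd (h0 : W 0 = 0) (h1 : W 1 = 1) (hodd : ∀ n, W (-n) = -W n)
    (hrel : ∀ p q : ℤ, W (p + q) * W (p - q) =
      W (p + 1) * W (p - 1) * W q ^ 2 - W (q + 1) * W (q - 1) * W p ^ 2)
    (hE2 : W 2 = 0 → ∀ k : ℤ, W (2 * k) = 0)
    (hN23 : ¬ (W 2 = 0 ∧ W 3 = 0)) (hN34 : ¬ (W 3 = 0 ∧ W 4 = 0))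
    {m : ℕ} (hm2 : 2 ≤ m) (hm : W m = 0) (hmin : ∀ k : ℕ, 1 ≤ k → k < m → W k ≠ 0) (n : ℤ) :
    W n = 0 ↔ (m : ℤ) ∣ n := by
  have key := zero_iff_dvd_nat h0 h1 hrel hE2 hN23 hN34 hm2 hm hmin n.natAbs
  rw [← Int.natCast_dvd_natCast, Int.natCast_natAbs, dvd_abs] at key
  rw [← key]
  rcases abs_choice n with h | h <;> rw [h]
  rw [hodd, neg_eq_zero]

/-- Version for Mathlib's normalised EDS. -/
theorem normEDS_zero_iff_dvd {b c d : F}
    (hrel : ∀ p q : ℤ, normEDS b c d (p + q) * normEDS b c d (p - q) =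
      normEDS b c d (p + 1) * normEDS b c d (p - 1) * normEDS b c d q ^ 2 -
        normEDS b c d (q + 1) * normEDS b c d (q - 1) * normEDS b c d p ^ 2)
    (hN23 : ¬ (b = 0 ∧ c = 0)) (hN34 : ¬ (c = 0 ∧ d * b = 0))
    {m : ℕ} (hm2 : 2 ≤ m) (hm : normEDS b c d m = 0)
    (hmin : ∀ k : ℕ, 1 ≤ k → k < m → normEDS b c d k ≠ 0) (n : ℤ) :
    normEDS b c d n = 0 ↔ (m : ℤ) ∣ n := by
  refine zero_iff_dvd (W := normEDS b c d) (normEDS_zero b c d) (normEDS_one b c d)
    (normEDS_neg b c d) hrel ?_ ?_ ?_ hm2 hm hmin n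
  · intro h2 k
    rw [normEDS_two] at h2
    rw [normEDS, if_pos (even_two_mul k), h2, mul_zero]
  · simpa using hN23
  · simpa using hN34

end Fermat.Agent.DivPoly.Apparition
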