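/-
Program A / A1b (helper29): the LINK between the group law and the (univariate) division
polynomials of Mathlib.

For a Weierstrass curve `W` over a field `F` and a nonsingular point `P = (x, y)` we prove, by
induction on `n`, that as long as `ΨSq_k(x) ≠ 0` for `1 ≤ k ≤ n`,

  `n • P = (xₙ, yₙ)`  with  `xₙ * ΨSq_n(x) = Φ_n(x)`,

and that the first index `m ≥ 2` with `ΨSq_m(x) = 0` is the exact order of `P`.

The only input about division polynomials is the `m = 2` family of the elliptic-sequence relations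
(`EDS2`, a polynomial identity in `R[X]`), taken here as an explicit hypothesis.
Everything is in univariate form: no coordinate ring, no `y`.
-/
import Mathlib
import Fermat.Agent.S05.PairFormulas

set_option autoImplicit false

open WeierstrassCurve WeierstrassCurve.Affine Polynomial
open Fermat.Agent.S05.PairFormulas

namespace Fermat.Agent.DivPoly.Link

/-! ### The `m = 2` elliptic relation for `preΨ` (hypothesis supplied by A1a) -/

/-- The `m = 2` family of elliptic-sequence relations, in `preΨ` form: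
`ψ(n+2) ψ(n-2) = ψ(n+1) ψ(n-1) ψ₂² - ψ₃ ψ(n)²` with the `ψ₂` factors stripped. -/
def EDS2 {R : Type*} [CommRing R] (W : WeierstrassCurve R) : Prop :=
  ∀ n : ℕ, 3 ≤ n →
    W.preΨ ((n : ℤ) + 2) * W.preΨ ((n : ℤ) - 2) =
      W.preΨ ((n : ℤ) + 1) * W.preΨ ((n : ℤ) - 1) * (if Even (n : ℤ) then 1 else W.Ψ₂Sq ^ 2)
        - W.Ψ₃ * W.preΨ (n : ℤ) ^ 2

section Alg

variable {F : Type*} [Field F]

/-- The purely algebraic induction step (both parities at once: `ε δ = D`). -/
lemma step_alg {x xn xm xp D Ψ3 Φ2 ε δ am2 am1 a0 a1 a2 : F}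
    (hεδ : ε * δ = D) (hε : ε ≠ 0) (hδ : δ ≠ 0)
    (ham2 : am2 ≠ 0) (ham1 : am1 ≠ 0) (ha0 : a0 ≠ 0)
    (h1 : xn * (a0 ^ 2 * ε) = x * (a0 ^ 2 * ε) - a1 * am1 * δ)
    (h2 : xm * (am1 ^ 2 * δ) = x * (am1 ^ 2 * δ) - a0 * am2 * ε)
    (hstar : (xp - x) * (xm - x) * (xn - x) ^ 2 = Φ2 - xn * D)
    (hΦ : Φ2 - x * D = -Ψ3)
    (hE : a2 * am2 = a1 * am1 * δ ^ 2 - Ψ3 * a0 ^ 2) :
    xp * (a1 ^ 2 * δ) = x * (a1 ^ 2 * δ) - a2 * a0 * ε := by
  have hu : xn - x = -(a1 * am1 * δ) / (a0 ^ 2 * ε) := by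
    rw [eq_div_iff (mul_ne_zero (pow_ne_zero 2 ha0) hε)]
    linear_combination h1
  have hw : xm - x = -(a0 * am2 * ε) / (am1 ^ 2 * δ) := by
    rw [eq_div_iff (mul_ne_zero (pow_ne_zero 2 ham1) hδ)]
    linear_combination h2
  have hr : Φ2 - xn * D = -Ψ3 - (xn - x) * D := by linear_combination hΦ
  rw [hr, hu, hw, ← hεδ] at hstar
  have key : am2 * (xp * (a1 ^ 2 * δ) - (x * (a1 ^ 2 * δ) - a2 * a0 * ε)) = 0 := by
    field_simp at hstar
    linear_combination (-1 : F) * hstar + (a0 * ε) * hE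
  rcases mul_eq_zero.1 key with h | h
  · exact absurd h ham2
  · exact sub_eq_zero.1 h

end Alg

section Eval

variable {F : Type*} [Field F] (W : Affine F) (x : F)

/-- `preΨ_n(x)`. -/
noncomputable def av (n : ℤ) : F := (W.preΨ n).eval x

/-- `Ψ₂Sq(x)`. -/
noncomputable def Dv : F := W.Ψ₂Sq.eval x

/-- the parity factor of `ΨSq_n`. -/
noncomputable def eps (n : ℤ) : F := if Even n then Dv W x else 1

/-- the parity factor of `Φ_n`. -/
noncomputable def del (n : ℤ) : F := if Even n then 1 else Dv W x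

lemma eps_mul_del (n : ℤ) : eps W x n * del W x n = Dv W x := by
  unfold eps del; split_ifs <;> simp

lemma eps_add_one (n : ℤ) : eps W x (n + 1) = del W x n := by
  unfold eps del; simp only [Int.even_add_one]; split_ifs <;> rfl

lemma del_add_one (n : ℤ) : del W x (n + 1) = eps W x n := by
  unfold eps del; simp only [Int.even_add_one]; split_ifs <;> rfl

lemma eps_sub_one (n : ℤ) : eps W x (n - 1) = del W x n := by
  unfold eps del; simp only [Int.even_sub_one]; split_ifs <;> rfl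

lemma del_sub_one (n : ℤ) : del W x (n - 1) = eps W x n := by
  unfold eps del; simp only [Int.even_sub_one]; split_ifs <;> rfl

lemma Dv_eq : Dv W x = psi2sq W x := by
  simp [Dv, Ψ₂Sq, psi2sq]

lemma eval_ΨSq (n : ℤ) : (W.ΨSq n).eval x = av W x n ^ 2 * eps W x n := by
  unfold WeierstrassCurve.ΨSq av eps Dv
  split_ifs <;> simp

lemma eval_Φ (n : ℤ) : (W.Φ n).eval x =
    x * (av W x n ^ 2 * eps W x n) - av W x (n + 1) * av W x (n - 1) * del W x n := by
  rw [← eval_ΨSq]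
  unfold WeierstrassCurve.Φ av del Dv
  split_ifs <;> simp

lemma eval_Φ_two : (W.Φ 2).eval x = phi2 W x := by
  rw [Φ_two]; simp [phi2]

lemma eval_Ψ₃ : W.Ψ₃.eval x =
    3 * x ^ 4 + W.b₂ * x ^ 3 + 3 * W.b₄ * x ^ 2 + 3 * W.b₆ * x + W.b₈ := by
  simp [Ψ₃]

lemma eval_preΨ₄ : W.preΨ₄.eval x =
    2 * x ^ 6 + W.b₂ * x ^ 5 + 5 * W.b₄ * x ^ 4 + 10 * W.b₆ * x ^ 3 + 10 * W.b₈ * x ^ 2 +
      (W.b₂ * W.b₈ - W.b₄ * W.b₆) * x + (W.b₄ * W.b₈ - W.b₆ ^ 2) := by
  simp [preΨ₄]

lemma phi2_sub : phi2 W x - x * psi2sq W x = -W.Ψ₃.eval x := by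
  rw [eval_Ψ₃]; simp only [phi2, psi2sq]; ring

lemma av_zero : av W x 0 = 0 := by simp [av]
lemma av_one : av W x 1 = 1 := by simp [av]
lemma av_two : av W x 2 = 1 := by simp [av]
lemma av_three : av W x 3 = W.Ψ₃.eval x := by simp [av]
lemma av_four : av W x 4 = W.preΨ₄.eval x := by simp [av]

/-- the pair identity `(*)`: `N(u,x) - x N'(u,x) + x² (u-x)² = Φ₂(x) - u Ψ₂Sq(x)`. -/
lemma star_alg (u : F) :
    pairProd W u x - x * pairSum W u x + x ^ 2 * (u - x) ^ 2 = phi2 W x - u * psi2sq W x := by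
  simp only [pairProd, pairSum, phi2, psi2sq]; ring

/-- `EDS2`, evaluated. -/
lemma EDS2.eval {W : Affine F} (hE : EDS2 W) (x : F) (n : ℕ) (hn : 3 ≤ n) :
    av W x (n + 2) * av W x (n - 2) =
      av W x (n + 1) * av W x (n - 1) * del W x n ^ 2 - W.Ψ₃.eval x * av W x n ^ 2 := by
  have h := congrArg (Polynomial.eval x) (hE n hn)
  simp only [eval_mul, eval_sub, eval_pow] at h
  unfold av del Dv
  rw [h]
  split_ifs <;> simp

/-- The base case `n = 3` (where `(*)` degenerates): pure algebra. -/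
lemma base3_alg {x x2 xp : F} (hD : psi2sq W x ≠ 0) (h2 : x2 * psi2sq W x = phi2 W x)
    (hs : (xp + x) * (x2 - x) ^ 2 = pairSum W x2 x) :
    xp * (W.Ψ₃.eval x) ^ 2 = x * (W.Ψ₃.eval x) ^ 2 - W.preΨ₄.eval x * psi2sq W x := by
  have hb := W.b_relation
  have h3 := eval_Ψ₃ W x
  have h4 := eval_preΨ₄ W x
  have hΦ := phi2_sub W x
  obtain ⟨D, hDdef⟩ : ∃ D, D = psi2sq W x := ⟨_, rfl⟩
  obtain ⟨Φ2, hΦdef⟩ : ∃ Φ2, Φ2 = phi2 W x := ⟨_, rfl⟩
  obtain ⟨Ψ3, hΨdef⟩ : ∃ Ψ3, Ψ3 = W.Ψ₃.eval x := ⟨_, rfl⟩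
  obtain ⟨P4, hPdef⟩ : ∃ P4, P4 = W.preΨ₄.eval x := ⟨_, rfl⟩
  rw [← hDdef, ← hΦdef] at h2 hΦ
  rw [← hDdef] at hD
  rw [← hΨdef] at hΦ h3
  rw [← hPdef] at h4
  rw [← hDdef, ← hΨdef, ← hPdef]
  have hx2 : x2 = Φ2 / D := eq_div_of_mul_eq hD h2
  have hu : x2 - x = -Ψ3 / D := by
    rw [hx2, eq_div_iff hD, sub_mul, div_mul_cancel₀ _ hD]
    exact hΦ
  rw [hu] at hs
  rw [hx2] at hs
  simp only [pairSum] at hs
  field_simp at hs
  simp only [psi2sq] at hDdef
  simp only [phi2] at hΦdef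
  subst hDdef hΦdef
  rw [h3, h4]
  rw [h3] at hs
  linear_combination hs + (x ^ 2 * (4 * x ^ 3 + W.b₂ * x ^ 2 + 2 * W.b₄ * x + W.b₆)) * hb



end Eval

section Points

variable {F : Type*} [Field F] {W : Affine F}

/-- helper: from `ΨSq_k(x) ≠ 0` get `preΨ_k(x) ≠ 0`. -/
lemma av_ne_zero {x : F} {k : ℤ} (h : (W.ΨSq k).eval x ≠ 0) : av W x k ≠ 0 := by
  rw [eval_ΨSq] at h
  exact fun h0 => h (by rw [h0]; ring)

lemma Dv_ne_zero {x : F} (h : (W.ΨSq 2).eval x ≠ 0) : Dv W x ≠ 0 := by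
  rw [ΨSq_two] at h; exact h

lemma eps_ne_zero_of {x : F} (hD : Dv W x ≠ 0) (k : ℤ) : eps W x k ≠ 0 := by
  unfold eps; split_ifs; exacts [hD, one_ne_zero]

lemma del_ne_zero_of {x : F} (hD : Dv W x ≠ 0) (k : ℤ) : del W x k ≠ 0 := by
  unfold del; split_ifs; exacts [one_ne_zero, hD]

variable [DecidableEq F]

/-- The identity `(*)` at point level, together with the sum formula. -/
theorem star {x y u w : F} (h : W.Nonsingular x y) (hQ : W.Nonsingular u w) (hne : u ≠ x) :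
    ∃ (xp yp xm ym : F) (hp : W.Nonsingular xp yp) (hm : W.Nonsingular xm ym),
      Point.some u w hQ + Point.some x y h = Point.some xp yp hp ∧
      Point.some u w hQ - Point.some x y h = Point.some xm ym hm ∧
      (xp - x) * (xm - x) * (u - x) ^ 2 = phi2 W x - u * psi2sq W x ∧
      (xp + xm) * (u - x) ^ 2 = pairSum W u x := by
  obtain ⟨xp, yp, xm, ym, hp, hm, e1, e2, e3, e4, -, -⟩ := add_sub_some hQ h hne
  refine ⟨xp, yp, xm, ym, hp, hm, e1, e2, ?_, e4⟩
  rw [← star_alg W x u]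
  linear_combination e3 - x * e4

/-- **Main induction.** As long as `ΨSq_k(x) ≠ 0` for `1 ≤ k ≤ n`, the multiple `n • P` is an
affine point whose `x`-coordinate is `Φ_n(x) / ΨSq_n(x)`. -/
theorem x_nsmul (hE : EDS2 W) {x y : F} (h : W.Nonsingular x y) :
    ∀ n : ℕ, 1 ≤ n → (∀ k : ℕ, 1 ≤ k → k ≤ n → (W.ΨSq (k : ℤ)).eval x ≠ 0) →
      ∃ (xn yn : F) (hn : W.Nonsingular xn yn),
        n • Point.some x y h = Point.some xn yn hn ∧
          xn * (W.ΨSq (n : ℤ)).eval x = (W.Φ (n : ℤ)).eval x := by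
  intro n
  induction n using Nat.strong_induction_on with
  | _ n ih =>
    intro hn1 H
    -- case distinction on `n`
    rcases Nat.lt_or_ge n 4 with hlt | hge
    · interval_cases n
      · -- n = 1
        refine ⟨x, y, h, one_nsmul _, ?_⟩
        simp
      · -- n = 2
        have hD : psi2sq W x ≠ 0 := by
          rw [← Dv_eq]; exact Dv_ne_zero (by simpa using H 2 (by norm_num) le_rfl)
        have hy : y ≠ W.negY x y := (psi2sq_ne_zero_iff h.1).1 hD
        obtain ⟨xd, yd, hd, e, e'⟩ := add_self_some h hy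
        refine ⟨xd, yd, hd, by rw [two_nsmul, e], ?_⟩
        have : ((2 : ℕ) : ℤ) = 2 := by norm_num
        rw [this, ΨSq_two, eval_Φ_two, ← e', ← Dv_eq]; rfl
      · -- n = 3
        have H2 : (W.ΨSq 2).eval x ≠ 0 := by simpa using H 2 (by norm_num) (by norm_num)
        have H3 : (W.ΨSq 3).eval x ≠ 0 := by simpa using H 3 (by norm_num) (by norm_num)
        have hD : psi2sq W x ≠ 0 := by rw [← Dv_eq]; exact Dv_ne_zero H2
        have hΨ3 : W.Ψ₃.eval x ≠ 0 := by
          rw [ΨSq_three, eval_pow] at H3; exact fun h0 => H3 (by rw [h0]; ring)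
        obtain ⟨x2, y2, h2, e2, e2'⟩ := ih 2 (by norm_num) (by norm_num)
          (fun k hk1 hk2 => H k hk1 (by omega))
        have e2'' : x2 * psi2sq W x = phi2 W x := by
          have : ((2 : ℕ) : ℤ) = 2 := by norm_num
          rw [this, ΨSq_two, eval_Φ_two] at e2'
          rw [← Dv_eq]; exact e2'
        have hne : x2 ≠ x := by
          intro h0
          have := phi2_sub W x
          rw [← e2'', h0, sub_self] at this
          exact hΨ3 (by linear_combination this)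
        obtain ⟨xp, yp, xm, ym, hp, hm, e3, e4, -, e6⟩ := star h h2 hne
        have hxm : xm = x := by
          have : (2 : ℕ) • Point.some x y h - Point.some x y h = Point.some x y h := by
            rw [two_nsmul, add_sub_cancel_right]
          rw [e2, e4] at this
          exact (Point.some.inj this).1
        subst hxm
        refine ⟨xp, yp, hp, ?_, ?_⟩
        · rw [show (3 : ℕ) = 2 + 1 from rfl, succ_nsmul, e2, e3]
        · have : ((3 : ℕ) : ℤ) = 3 := by norm_num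
          rw [this, ΨSq_three, Φ_three]
          simp only [eval_pow, eval_sub, eval_mul, eval_X]
          have := base3_alg W hD e2'' e6
          rw [← Dv_eq] at this
          exact this
    · -- n ≥ 4 : write n = m + 1 with m ≥ 3
      obtain ⟨m, rfl⟩ : ∃ m, n = m + 1 := ⟨n - 1, by omega⟩
      have hm3 : 3 ≤ m := by omega
      -- nonvanishing
      have Hk : ∀ k : ℕ, 1 ≤ k → k ≤ m + 1 → av W x (k : ℤ) ≠ 0 :=
        fun k hk1 hk2 => av_ne_zero (H k hk1 hk2)
      have hD : Dv W x ≠ 0 := Dv_ne_zero (by simpa using H 2 (by norm_num) (by omega))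
      have ham2 : av W x ((m : ℤ) - 2) ≠ 0 := by
        have := Hk (m - 2) (by omega) (by omega)
        rwa [show ((m - 2 : ℕ) : ℤ) = (m : ℤ) - 2 by omega] at this
      have ham1 : av W x ((m : ℤ) - 1) ≠ 0 := by
        have := Hk (m - 1) (by omega) (by omega)
        rwa [show ((m - 1 : ℕ) : ℤ) = (m : ℤ) - 1 by omega] at this
      have ha0 : av W x (m : ℤ) ≠ 0 := Hk m (by omega) (by omega)
      have ha1 : av W x ((m : ℤ) + 1) ≠ 0 := by
        have := Hk (m + 1) (by omega) le_rfl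
        rwa [show ((m + 1 : ℕ) : ℤ) = (m : ℤ) + 1 by omega] at this
      -- induction hypotheses
      obtain ⟨xn, yn, hn, en, en'⟩ := ih m (by omega) (by omega)
        (fun k hk1 hk2 => H k hk1 (by omega))
      obtain ⟨xq, yq, hq, eq, eq'⟩ := ih (m - 1) (by omega) (by omega)
        (fun k hk1 hk2 => H k hk1 (by omega))
      rw [show ((m - 1 : ℕ) : ℤ) = (m : ℤ) - 1 by omega] at eq'
      rw [eval_ΨSq, eval_Φ] at en' eq'
      rw [eps_sub_one, del_sub_one, sub_add_cancel,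
        show (m : ℤ) - 1 - 1 = (m : ℤ) - 2 by ring] at eq'
      have hne : xn ≠ x := by
        intro h0
        rw [h0] at en'
        have : av W x ((m : ℤ) + 1) * av W x ((m : ℤ) - 1) * del W x (m : ℤ) = 0 := by
          linear_combination en'
        exact (mul_ne_zero (mul_ne_zero ha1 ham1) (del_ne_zero_of hD _)) this
      obtain ⟨xp, yp, xm, ym, hp, hm, e3, e4, e5, -⟩ := star h hn hne
      have hxm : xm = xq := by
        have : m • Point.some x y h - Point.some x y h = (m - 1) • Point.some x y h := by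
          conv_lhs => rw [show m = (m - 1) + 1 by omega, succ_nsmul, add_sub_cancel_right]
        rw [en, e4, eq] at this
        exact (Point.some.inj this).1
      subst hxm
      refine ⟨xp, yp, hp, ?_, ?_⟩
      · rw [succ_nsmul, en, e3]
      · rw [show ((m + 1 : ℕ) : ℤ) = (m : ℤ) + 1 by omega, eval_ΨSq, eval_Φ, eps_add_one,
          del_add_one, add_sub_cancel_right, show (m : ℤ) + 1 + 1 = (m : ℤ) + 2 by ring]
        rw [← Dv_eq] at e5
        have hΦ := phi2_sub W x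
        rw [← Dv_eq] at hΦ
        exact step_alg (eps_mul_del W x m) (eps_ne_zero_of hD _) (del_ne_zero_of hD _)
          ham2 ham1 ha0 en' eq' e5 hΦ (hE.eval x m hm3)

/-- If `ΨSq_k(x) ≠ 0` for `1 ≤ k ≤ n` and `ΨSq_{n+1}(x) = 0`, then `(n+1) • P = 0`. -/
theorem succ_nsmul_eq_zero (hE : EDS2 W) {x y : F} (h : W.Nonsingular x y) (n : ℕ) (hn1 : 1 ≤ n)
    (H : ∀ k : ℕ, 1 ≤ k → k ≤ n → (W.ΨSq (k : ℤ)).eval x ≠ 0)
    (H0 : (W.ΨSq ((n + 1 : ℕ) : ℤ)).eval x = 0) :
    (n + 1) • Point.some x y h = 0 := by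
  rcases Nat.lt_or_ge n 2 with hlt | hge
  · -- n = 1
    obtain rfl : n = 1 := by omega
    have h2 : psi2sq W x = 0 := by
      rw [← Dv_eq]
      have : ((1 + 1 : ℕ) : ℤ) = 2 := by norm_num
      rw [this, ΨSq_two] at H0
      exact H0
    have hy : y = W.negY x y := by
      by_contra hy
      exact (psi2sq_ne_zero_iff h.1).2 hy h2
    rw [show 1 + 1 = 2 from rfl, two_nsmul]
    exact Point.add_self_of_Y_eq hy
  · obtain ⟨xn, yn, hn, en, en'⟩ := x_nsmul hE h n hn1 H
    obtain ⟨xq, yq, hq, eq, -⟩ := x_nsmul hE h (n - 1) (by omega)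
      (fun k hk1 hk2 => H k hk1 (by omega))
    have hD : Dv W x ≠ 0 := Dv_ne_zero (by simpa using H 2 (by norm_num) hge)
    have ha1 : av W x ((n : ℤ) + 1) = 0 := by
      rw [show ((n + 1 : ℕ) : ℤ) = (n : ℤ) + 1 by omega, eval_ΨSq] at H0
      rcases mul_eq_zero.1 H0 with h0 | h0
      · exact (pow_eq_zero_iff two_ne_zero).1 h0
      · exact absurd h0 (eps_ne_zero_of hD _)
    rw [eval_ΨSq, eval_Φ, ha1] at en'
    have hx : xn = x := by
      have hne : av W x n ^ 2 * eps W x n ≠ 0 :=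
        mul_ne_zero (pow_ne_zero 2 (av_ne_zero (H n hn1 le_rfl))) (eps_ne_zero_of hD _)
      apply mul_right_cancel₀ hne
      linear_combination en'
    subst hx
    have hsplit : n • Point.some xn y h = (n - 1) • Point.some xn y h + Point.some xn y h := by
      conv_lhs => rw [show n = (n - 1) + 1 by omega, succ_nsmul]
    rcases Y_eq_of_X_eq hn.1 h.1 rfl with hy | hy
    · -- `n • P = P`, so `(n - 1) • P = 0`: contradiction
      subst hy
      exfalso
      rw [en] at hsplit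
      have h0 : (n - 1) • Point.some xn yn h = 0 := by
        have : Point.some xn yn h = (n - 1) • Point.some xn yn h + Point.some xn yn h := hsplit
        exact (add_eq_right.1 this.symm)
      rw [eq] at h0
      exact Point.some_ne_zero _ h0
    · -- `n • P = -P`
      rw [succ_nsmul, en]
      exact Point.add_of_Y_eq rfl hy

/-- The first zero of `k ↦ ΨSq_k(x)` is the exact order of `P`. -/
theorem first_zero_spec (hE : EDS2 W) {x y : F} (h : W.Nonsingular x y) {m : ℕ} (hm : 2 ≤ m)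
    (H0 : (W.ΨSq (m : ℤ)).eval x = 0)
    (H : ∀ k : ℕ, 1 ≤ k → k < m → (W.ΨSq (k : ℤ)).eval x ≠ 0) :
    m • Point.some x y h = 0 ∧ ∀ k : ℕ, 1 ≤ k → k < m → k • Point.some x y h ≠ 0 := by
  constructor
  · have := succ_nsmul_eq_zero hE h (m - 1) (by omega) (fun k hk1 hk2 => H k hk1 (by omega))
      (by rwa [show m - 1 + 1 = m by omega])
    rwa [show m - 1 + 1 = m by omega] at this
  · intro k hk1 hk2
    obtain ⟨xk, yk, hk, ek, -⟩ := x_nsmul hE h k hk1 (fun j hj1 hj2 => H j hj1 (by omega))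
    rw [ek]
    exact Point.some_ne_zero _

/-- If `n • P = 0` (`n ≥ 1`, `P` affine), then `k ↦ ΨSq_k(x)` has a first zero `m` with
`2 ≤ m ≤ n`, and `m` is the exact order of `P`. -/
theorem exists_first_zero (hE : EDS2 W) {x y : F} (h : W.Nonsingular x y) {n : ℕ} (hn : 1 ≤ n)
    (hP : n • Point.some x y h = 0) :
    ∃ m : ℕ, 2 ≤ m ∧ m ≤ n ∧ (W.ΨSq (m : ℤ)).eval x = 0 ∧
      (∀ k : ℕ, 1 ≤ k → k < m → (W.ΨSq (k : ℤ)).eval x ≠ 0) ∧
      m • Point.some x y h = 0 ∧ ∀ k : ℕ, 1 ≤ k → k < m → k • Point.some x y h ≠ 0 := by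
  classical
  have hex : ∃ k : ℕ, 1 ≤ k ∧ (W.ΨSq (k : ℤ)).eval x = 0 := by
    by_contra hno
    push Not at hno
    obtain ⟨xn, yn, hn', en, -⟩ := x_nsmul hE h n hn (fun k hk1 _ => hno k hk1)
    rw [hP] at en
    exact Point.some_ne_zero _ en.symm
  obtain ⟨hm1, hm0⟩ := Nat.find_spec hex
  have hmin : ∀ k : ℕ, 1 ≤ k → k < Nat.find hex → (W.ΨSq (k : ℤ)).eval x ≠ 0 :=
    fun k hk1 hk2 h0 => Nat.find_min hex hk2 ⟨hk1, h0⟩
  have hm2 : 2 ≤ Nat.find hex := by
    by_contra hlt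
    have h1 : Nat.find hex = 1 := by omega
    rw [h1] at hm0
    simp at hm0
  obtain ⟨h1, h2⟩ := first_zero_spec hE h hm2 hm0 hmin
  refine ⟨Nat.find hex, hm2, ?_, hm0, hmin, h1, h2⟩
  by_contra hlt
  exact h2 n hn (by omega) hP

/-- **(⇒) for primes.** A nonzero affine `p`-torsion point has `ΨSq_p(x) = 0`. -/
theorem eval_ΨSq_eq_zero_of_prime_nsmul (hE : EDS2 W) {x y : F} (h : W.Nonsingular x y) {p : ℕ}
    (hp : p.Prime) (hP : p • Point.some x y h = 0) : (W.ΨSq (p : ℤ)).eval x = 0 := by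
  obtain ⟨m, hm2, hmp, hm0, -, hmP, hmin⟩ := exists_first_zero hE h hp.one_lt.le hP
  rcases Nat.lt_or_ge m p with hlt | hge
  · exfalso
    have h1 : addOrderOf (Point.some x y h) ∣ m := addOrderOf_dvd_of_nsmul_eq_zero hmP
    have h2 : addOrderOf (Point.some x y h) ∣ p := addOrderOf_dvd_of_nsmul_eq_zero hP
    rcases (Nat.dvd_prime hp).1 h2 with h3 | h3
    · exact Point.some_ne_zero _ (AddMonoid.addOrderOf_eq_one_iff.1 h3)
    · rw [h3] at h1
      have := Nat.le_of_dvd (by omega) h1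
      omega
  · obtain rfl : m = p := le_antisymm hmp hge
    exact hm0

/-- **(⇒) for odd primes**, in terms of `preΨ`. -/
theorem eval_preΨ_eq_zero_of_prime_nsmul (hE : EDS2 W) {x y : F} (h : W.Nonsingular x y) {p : ℕ}
    (hp : p.Prime) (hp2 : p ≠ 2) (hP : p • Point.some x y h = 0) :
    (W.preΨ (p : ℤ)).eval x = 0 := by
  have h0 := eval_ΨSq_eq_zero_of_prime_nsmul hE h hp hP
  rw [eval_ΨSq] at h0
  have hodd : ¬ Even (p : ℤ) := by
    rw [Int.even_coe_nat, hp.even_iff]; exact hp2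
  have he : eps W x (p : ℤ) = 1 := by unfold eps; rw [if_neg hodd]
  rw [he, mul_one] at h0
  exact (pow_eq_zero_iff two_ne_zero).1 h0

/-- The first zero is the additive order. -/
theorem addOrderOf_eq_of_first_zero (hE : EDS2 W) {x y : F} (h : W.Nonsingular x y) {m : ℕ}
    (hm : 2 ≤ m) (H0 : (W.ΨSq (m : ℤ)).eval x = 0)
    (H : ∀ k : ℕ, 1 ≤ k → k < m → (W.ΨSq (k : ℤ)).eval x ≠ 0) :
    addOrderOf (Point.some x y h) = m := by
  obtain ⟨h1, h2⟩ := first_zero_spec hE h hm H0 H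
  have hd : addOrderOf (Point.some x y h) ∣ m := addOrderOf_dvd_of_nsmul_eq_zero h1
  have hpos : 0 < addOrderOf (Point.some x y h) :=
    Nat.pos_of_ne_zero fun h0 => by rw [h0] at hd; omega
  by_contra hne
  have hlt : addOrderOf (Point.some x y h) < m :=
    lt_of_le_of_ne (Nat.le_of_dvd (by omega) hd) hne
  exact h2 _ hpos hlt (addOrderOf_nsmul_eq_zero _)

end Points

end Fermat.Agent.DivPoly.Link
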