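import Fermat.Agent.DivPoly.TorsionPlug
import Fermat.Agent.DivPoly.Link

/-!
# Torsion points and division polynomials: the final `iff` (A1b-R3)

For a nonsingular point `P = (x, y)` of a Weierstrass curve over a field and `n ≥ 1`:
`n • P = 0 ↔ (W.ΨSq n).eval x = 0`, and for odd `n`: `↔ (W.preΨ n).eval x = 0`.

In this file the two inputs from A1a are still explicit hypotheses:
* `hE : Link.EDS2 W` (the `m = 2` family for `W.preΨ`), and
* `hrel : WardRel (psiVal W x y)` (Ward's relation for the values `ψ_n(x, y)`).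
They are discharged in `TorsionFinal.lean`.
-/

set_option autoImplicit false

open WeierstrassCurve WeierstrassCurve.Affine Polynomial

namespace Fermat.Agent.DivPoly.Torsion

variable {F : Type*} [Field F] [DecidableEq F] {W : Affine F}

/-- The final iff (inputs from A1a as hypotheses). -/
theorem nsmul_eq_zero_iff_of (hE : Link.EDS2 W) {x y : F} (h : W.Nonsingular x y)
    (hrel : WardRel (psiVal W x y)) (n : ℕ) (hn : 1 ≤ n) :
    n • Point.some x y h = 0 ↔ (W.ΨSq (n : ℤ)).eval x = 0 := by
  refine nsmul_eq_zero_iff_of_rel h hrel ?_ ?_ n hn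
  · intro n hn1 H hP
    obtain ⟨xn, yn, hn', en, -⟩ := Link.x_nsmul hE h n hn1 H
    rw [en] at hP
    exact Point.some_ne_zero _ hP
  · intro n H H0
    rcases Nat.eq_zero_or_pos n with rfl | hpos
    · exfalso
      simp at H0
    · exact Link.succ_nsmul_eq_zero hE h n hpos H H0

/-- The final iff for odd `n`, in terms of `preΨ`. -/
theorem nsmul_eq_zero_iff_preΨ_of (hE : Link.EDS2 W) {x y : F} (h : W.Nonsingular x y)
    (hrel : WardRel (psiVal W x y)) {n : ℕ} (hn : Odd n) :
    n • Point.some x y h = 0 ↔ (W.preΨ (n : ℤ)).eval x = 0 := by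
  have hn1 : 1 ≤ n := hn.pos
  rw [nsmul_eq_zero_iff_of hE h hrel n hn1]
  exact eval_ΨSq_eq_zero_iff_of_odd x (by exact_mod_cast hn)

/-- The same with the `ℕ`-indexed `preΨ'` (the shape `Count.TorsionIff`). -/
theorem nsmul_eq_zero_iff_preΨ'_of (hE : Link.EDS2 W) {x y : F} (h : W.Nonsingular x y)
    (hrel : WardRel (psiVal W x y)) {n : ℕ} (hn : Odd n) :
    n • Point.some x y h = 0 ↔ (W.preΨ' n).eval x = 0 := by
  rw [nsmul_eq_zero_iff_preΨ_of hE h hrel hn, preΨ_ofNat]

/-- Integer multiples. -/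
theorem zsmul_eq_zero_iff_of (hE : Link.EDS2 W) {x y : F} (h : W.Nonsingular x y)
    (hrel : WardRel (psiVal W x y)) (n : ℤ) :
    n • Point.some x y h = 0 ↔ (W.ΨSq n).eval x = 0 := by
  rcases Int.natAbs_eq n with hn | hn
  · rcases Nat.eq_zero_or_pos n.natAbs with h0 | hpos
    · have : n = 0 := Int.natAbs_eq_zero.mp h0
      subst this
      simp
    · rw [hn, natCast_zsmul]
      exact nsmul_eq_zero_iff_of hE h hrel _ hpos
  · rcases Nat.eq_zero_or_pos n.natAbs with h0 | hpos
    · have : n = 0 := Int.natAbs_eq_zero.mp h0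
      subst this
      simp
    · rw [hn, neg_zsmul, neg_eq_zero, natCast_zsmul, ΨSq_neg]
      exact nsmul_eq_zero_iff_of hE h hrel _ hpos

end Fermat.Agent.DivPoly.Torsion
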