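import Fermat.Agent.DivPoly.Count
import Fermat.Agent.DivPoly.Torsion
import Fermat.Agent.DivPoly.WardFinal

/-!
# Division polynomials: hypothesis-free torsion facts (A1 final packaging)

Combines Ward's theorem (`WardFinal`), the link with the group law (`Link`, `Torsion`) and the
counting lemmas (`Count`) into unconditional statements for a Weierstrass curve `W` over a field
`F` and an odd `n`:

* `nsmul_eq_zero_iff` : `n • (x, y) = 0 ↔ ΨSq_n(x) = 0` (any `n ≥ 1`);
* `torsionIff` : `n • (x, y) = 0 ↔ preΨ'_n(x) = 0` (`n` odd);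
* `exists_torsion_point`, `torsion_finite_ncard_le`, `nontrivial_torsionBy`, `card_torsionBy_le`,
  `finrank_torsionBy_le_two`.
-/

set_option autoImplicit false

open WeierstrassCurve WeierstrassCurve.Affine Polynomial

namespace Fermat.Agent.DivPoly.CountFinal

variable {F : Type*} [Field F] [DecidableEq F] {W : Affine F}

omit [DecidableEq F] in
theorem eds2 (W : Affine F) : Link.EDS2 W := WardFinal.eds2 W

omit [DecidableEq F] in
theorem wardRel (W : Affine F) (x y : F) : Torsion.WardRel (Torsion.psiVal W x y) :=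
  fun p q => WardFinal.normEDS_rel _ _ _ p q

/-- `n • (x, y) = 0 ↔ ΨSq_n(x) = 0` for `n ≥ 1`. -/
theorem nsmul_eq_zero_iff {x y : F} (h : W.Nonsingular x y) (n : ℕ) (hn : 1 ≤ n) :
    n • Point.some x y h = 0 ↔ (WeierstrassCurve.ΨSq W (n : ℤ)).eval x = 0 :=
  Torsion.nsmul_eq_zero_iff_of (eds2 W) h (wardRel W x y) n hn

/-- `n • (x, y) = 0 ↔ ΨSq_n(x) = 0` for all integers `n`. -/
theorem zsmul_eq_zero_iff {x y : F} (h : W.Nonsingular x y) (n : ℤ) :
    n • Point.some x y h = 0 ↔ (WeierstrassCurve.ΨSq W n).eval x = 0 :=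
  Torsion.zsmul_eq_zero_iff_of (eds2 W) h (wardRel W x y) n

/-- `n • (x, y) = 0 ↔ preΨ_n(x) = 0` for odd `n`. -/
theorem nsmul_eq_zero_iff_preΨ {x y : F} (h : W.Nonsingular x y) {n : ℕ} (hn : Odd n) :
    n • Point.some x y h = 0 ↔ (WeierstrassCurve.preΨ W (n : ℤ)).eval x = 0 :=
  Torsion.nsmul_eq_zero_iff_preΨ_of (eds2 W) h (wardRel W x y) hn

/-- The hypothesis of `Count` holds for every odd `n`. -/
theorem torsionIff (W : Affine F) {n : ℕ} (hn : Odd n) : Count.TorsionIff W n :=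
  fun _ _ h => Torsion.nsmul_eq_zero_iff_preΨ'_of (eds2 W) h (wardRel W _ _) hn

/-- The `n`-torsion is finite with at most `n²` points (`n` odd, invertible in `F`). -/
theorem torsion_finite_ncard_le {n : ℕ} (hn : Odd n) (hnF : (n : F) ≠ 0) :
    {P : W.Point | n • P = 0}.Finite ∧ {P : W.Point | n • P = 0}.ncard ≤ n ^ 2 :=
  Count.torsion_finite_ncard_le hn hnF (torsionIff W hn)

/-- Over an algebraically closed field there is a nonzero point killed by the odd number `n > 2`
(invertible in `F`, `Δ ≠ 0`). -/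
theorem exists_torsion_point [IsAlgClosed F] {n : ℕ} (hn : Odd n) (h2 : 2 < n)
    (hnF : (n : F) ≠ 0) (hΔ : W.Δ ≠ 0) : ∃ P : W.Point, P ≠ 0 ∧ n • P = 0 :=
  Count.exists_torsion_point h2 hnF hΔ (torsionIff W hn)

theorem nontrivial_torsionBy [IsAlgClosed F] {n : ℕ} (hn : Odd n) (h2 : 2 < n)
    (hnF : (n : F) ≠ 0) (hΔ : W.Δ ≠ 0) :
    Nontrivial (Submodule.torsionBy ℤ W.Point (n : ℤ)) :=
  Count.nontrivial_torsionBy h2 hnF hΔ (torsionIff W hn)

theorem finite_torsionBy {n : ℕ} (hn : Odd n) (hnF : (n : F) ≠ 0) :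
    Finite (Submodule.torsionBy ℤ W.Point (n : ℤ)) :=
  Count.finite_torsionBy hn hnF (torsionIff W hn)

theorem card_torsionBy_le {n : ℕ} (hn : Odd n) (hnF : (n : F) ≠ 0) :
    Nat.card (Submodule.torsionBy ℤ W.Point (n : ℤ)) ≤ n ^ 2 :=
  Count.card_torsionBy_le hn hnF (torsionIff W hn)

end Fermat.Agent.DivPoly.CountFinal
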