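import Mathlib
import Fermat.Agent.DivPoly.CountFinal

/-!
# Exact count of the `n`-torsion of an elliptic curve (helper29)

For a Weierstrass curve `W` with `Δ ≠ 0` over an algebraically closed field of characteristic `0`
and an odd `n`, the `n`-torsion subgroup has exactly `n²` elements.
-/

set_option autoImplicit false

open WeierstrassCurve WeierstrassCurve.Affine Polynomial

namespace Fermat.Agent.DivPoly.CardEq29

variable {F : Type*} [Field F] [DecidableEq F] {W : Affine F}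

omit [DecidableEq F] in
/-- `ΨSq (n+1) * ΨSq (n-1)` is the square of the correction term of `Φ n`, for odd `n`. -/
theorem ΨSq_succ_mul_pred {n : ℤ} (hn : Odd n) :
    WeierstrassCurve.ΨSq W (n + 1) * WeierstrassCurve.ΨSq W (n - 1) =
      (X * WeierstrassCurve.ΨSq W n - WeierstrassCurve.Φ W n) ^ 2 := by
  have h1 : Even (n + 1) := hn.add_one
  have h2 : Even (n - 1) := hn.sub_odd odd_one
  have h0 : ¬ Even n := Int.not_even_iff_odd.mpr hn
  rw [WeierstrassCurve.Φ, WeierstrassCurve.ΨSq, WeierstrassCurve.ΨSq, if_pos h1, if_pos h2,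
    if_neg h0]
  ring

/-- `Φ_n` and `ΨSq_n` have no common root (`n` odd, `Δ ≠ 0`). -/
theorem eval_Φ_ne_zero_of_eval_ΨSq_eq_zero [IsAlgClosed F] (hΔ : W.Δ ≠ 0) {n : ℕ} (hn : Odd n)
    {x : F} (hx : (WeierstrassCurve.ΨSq W (n : ℤ)).eval x = 0) :
    (WeierstrassCurve.Φ W (n : ℤ)).eval x ≠ 0 := by
  intro hΦ
  obtain ⟨y, hy⟩ := Fermat.Agent.S51.exists_equation W x
  have h : W.Nonsingular x y := (equation_iff_nonsingular_of_Δ_ne_zero hΔ).mp hy
  have hn1 : 1 ≤ n := hn.pos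
  have hnP : n • Point.some x y h = 0 := (CountFinal.nsmul_eq_zero_iff h n hn1).mpr hx
  have hprod := congrArg (Polynomial.eval x)
    (ΨSq_succ_mul_pred (W := W) (n := (n : ℤ)) (by exact_mod_cast hn))
  simp only [eval_mul, eval_pow, eval_sub, eval_X, hx, hΦ, mul_zero, sub_zero] at hprod
  have hz : (0 : F) ^ 2 = 0 := by ring
  rw [hz] at hprod
  have hP0 : Point.some x y h = 0 := by
    rcases mul_eq_zero.mp hprod with h1 | h1
    · have := (CountFinal.zsmul_eq_zero_iff h ((n : ℤ) + 1)).mpr h1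
      rw [add_zsmul, one_zsmul, natCast_zsmul, hnP, zero_add] at this
      exact this
    · have := (CountFinal.zsmul_eq_zero_iff h ((n : ℤ) - 1)).mpr h1
      rw [sub_zsmul, one_zsmul, natCast_zsmul, hnP] at this
      simpa using this
  exact Point.some_ne_zero h hP0

/-- The Wronskian of `Φ_n` and `ΨSq_n`. -/
noncomputable def wr (W : Affine F) (n : ℕ) : F[X] :=
  derivative (WeierstrassCurve.Φ W (n : ℤ)) * WeierstrassCurve.ΨSq W (n : ℤ) -
    WeierstrassCurve.Φ W (n : ℤ) * derivative (WeierstrassCurve.ΨSq W (n : ℤ))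

omit [DecidableEq F] in
theorem coeff_wr (W : Affine F) {n : ℕ} (hn : 2 ≤ n) :
    (wr W n).coeff ((n ^ 2 - 1) + (n ^ 2 - 1)) = (n : F) ^ 2 := by
  have hn2 : 4 ≤ n ^ 2 := by nlinarith
  have hΦ : (WeierstrassCurve.Φ W (n : ℤ)).natDegree ≤ n ^ 2 := by
    simpa using WeierstrassCurve.natDegree_Φ_le W (n : ℤ)
  have hΨ : (WeierstrassCurve.ΨSq W (n : ℤ)).natDegree ≤ n ^ 2 - 1 := by
    simpa using WeierstrassCurve.natDegree_ΨSq_le W (n : ℤ)
  have hΦ' : (derivative (WeierstrassCurve.Φ W (n : ℤ))).natDegree ≤ n ^ 2 - 1 :=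
    (natDegree_derivative_le _).trans (Nat.sub_le_sub_right hΦ 1)
  have hΨ' : (derivative (WeierstrassCurve.ΨSq W (n : ℤ))).natDegree ≤ n ^ 2 - 2 :=
    (natDegree_derivative_le _).trans (by omega)
  have cΦ : (WeierstrassCurve.Φ W (n : ℤ)).coeff (n ^ 2) = 1 := by
    simpa using WeierstrassCurve.coeff_Φ W (n : ℤ)
  have cΨ : (WeierstrassCurve.ΨSq W (n : ℤ)).coeff (n ^ 2 - 1) = (n : F) ^ 2 := by
    simpa using WeierstrassCurve.coeff_ΨSq W (n : ℤ)
  have e1 : (n ^ 2 - 1) + (n ^ 2 - 1) = n ^ 2 + (n ^ 2 - 2) := by omega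
  rw [wr, coeff_sub, coeff_mul_add_eq_of_natDegree_le hΦ' hΨ, e1, coeff_mul_add_eq_of_natDegree_le hΦ hΨ',
    coeff_derivative, coeff_derivative, cΦ, cΨ]
  have e2 : n ^ 2 - 1 + 1 = n ^ 2 := by omega
  have e3 : n ^ 2 - 2 + 1 = n ^ 2 - 1 := by omega
  rw [e2, e3, cΦ, cΨ]
  have e4 : ((n ^ 2 - 1 : ℕ) : F) = (n : F) ^ 2 - 1 := by
    rw [Nat.cast_sub (by omega), Nat.cast_pow, Nat.cast_one]
  have e5 : ((n ^ 2 - 2 : ℕ) : F) = (n : F) ^ 2 - 2 := by
    rw [Nat.cast_sub (by omega), Nat.cast_pow]; norm_num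
  rw [e4, e5]
  ring

omit [DecidableEq F] in
theorem wr_ne_zero [CharZero F] (W : Affine F) {n : ℕ} (hn : 2 ≤ n) : wr W n ≠ 0 := by
  intro h
  have := coeff_wr W hn
  rw [h, coeff_zero] at this
  have hn0 : (n : F) ≠ 0 := Nat.cast_ne_zero.mpr (by omega)
  exact pow_ne_zero 2 hn0 this.symm

/-- The polynomial whose roots are the `x`-coordinates to avoid. -/
noncomputable def badPoly (W : Affine F) (n : ℕ) : F[X] :=
  wr W n * ∏ k ∈ Finset.Icc 1 n, WeierstrassCurve.ΨSq W (k : ℤ)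

omit [DecidableEq F] in
theorem badPoly_ne_zero [CharZero F] (W : Affine F) {n : ℕ} (hn : 2 ≤ n) : badPoly W n ≠ 0 := by
  refine mul_ne_zero (wr_ne_zero W hn) (Finset.prod_ne_zero_iff.mpr fun k hk => ?_)
  have hk1 : 1 ≤ k := (Finset.mem_Icc.mp hk).1
  refine WeierstrassCurve.ΨSq_ne_zero W ?_
  have : (k : F) ≠ 0 := Nat.cast_ne_zero.mpr (by omega)
  simpa using this

omit [DecidableEq F] in
theorem eval_wr_ne_zero_of_badPoly {n : ℕ} {x : F} (hx : (badPoly W n).eval x ≠ 0) :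
    (wr W n).eval x ≠ 0 := by
  intro h
  exact hx (by rw [badPoly, eval_mul, h, zero_mul])

omit [DecidableEq F] in
theorem eval_ΨSq_ne_zero_of_badPoly {n : ℕ} {x : F} (hx : (badPoly W n).eval x ≠ 0)
    {k : ℕ} (hk1 : 1 ≤ k) (hkn : k ≤ n) : (WeierstrassCurve.ΨSq W (k : ℤ)).eval x ≠ 0 := by
  intro h
  apply hx
  rw [badPoly, eval_mul, eval_prod,
    Finset.prod_eq_zero (Finset.mem_Icc.mpr ⟨hk1, hkn⟩) h, mul_zero]

/-- The fibre polynomial `Φ_n - c ΨSq_n`. -/
noncomputable def fib (W : Affine F) (n : ℕ) (c : F) : F[X] :=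
  WeierstrassCurve.Φ W (n : ℤ) - C c * WeierstrassCurve.ΨSq W (n : ℤ)

omit [DecidableEq F] in
theorem natDegree_C_mul_ΨSq_lt (W : Affine F) {n : ℕ} (hn : 1 ≤ n) (c : F) :
    (C c * WeierstrassCurve.ΨSq W (n : ℤ)).natDegree < n ^ 2 := by
  have hΨ : (WeierstrassCurve.ΨSq W (n : ℤ)).natDegree ≤ n ^ 2 - 1 := by
    simpa using WeierstrassCurve.natDegree_ΨSq_le W (n : ℤ)
  have h1 : 1 ≤ n ^ 2 := Nat.one_le_pow _ _ hn
  exact lt_of_le_of_lt ((natDegree_C_mul_le _ _).trans hΨ) (by omega)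

omit [DecidableEq F] in
theorem natDegree_fib (W : Affine F) {n : ℕ} (hn : 1 ≤ n) (c : F) :
    (fib W n c).natDegree = n ^ 2 := by
  have hΦ : (WeierstrassCurve.Φ W (n : ℤ)).natDegree = n ^ 2 := by
    simpa using WeierstrassCurve.natDegree_Φ W (n : ℤ)
  rw [fib, natDegree_sub_eq_left_of_natDegree_lt (by rw [hΦ]; exact natDegree_C_mul_ΨSq_lt W hn c),
    hΦ]

omit [DecidableEq F] in
theorem fib_ne_zero (W : Affine F) {n : ℕ} (hn : 1 ≤ n) (c : F) : fib W n c ≠ 0 := by
  intro h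
  have := natDegree_fib W hn c
  rw [h, natDegree_zero] at this
  have h1 : 1 ≤ n ^ 2 := Nat.one_le_pow _ _ hn
  omega

omit [DecidableEq F] in
theorem eval_fib (W : Affine F) (n : ℕ) (c x : F) :
    (fib W n c).eval x = (WeierstrassCurve.Φ W (n : ℤ)).eval x -
      c * (WeierstrassCurve.ΨSq W (n : ℤ)).eval x := by
  rw [fib, eval_sub, eval_mul, eval_C]

omit [DecidableEq F] in
theorem eval_derivative_fib (W : Affine F) (n : ℕ) (c x : F) :
    (derivative (fib W n c)).eval x = (derivative (WeierstrassCurve.Φ W (n : ℤ))).eval x -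
      c * (derivative (WeierstrassCurve.ΨSq W (n : ℤ))).eval x := by
  rw [fib, derivative_sub, derivative_C_mul, eval_sub, eval_mul, eval_C]

/-- `c` is generic for `(W, n)`: no root of `fib c` is a root of `badPoly`. -/
def Generic (W : Affine F) (n : ℕ) (c : F) : Prop :=
  ∀ x : F, (fib W n c).eval x = 0 → (badPoly W n).eval x ≠ 0

theorem exists_generic [IsAlgClosed F] [CharZero F] (hΔ : W.Δ ≠ 0) {n : ℕ} (hn : Odd n)
    (hn2 : 2 ≤ n) : ∃ c : F, Generic W n c := by
  classical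
  set S : Finset F := (badPoly W n).roots.toFinset.image
    (fun x => (WeierstrassCurve.Φ W (n : ℤ)).eval x / (WeierstrassCurve.ΨSq W (n : ℤ)).eval x)
    with hS
  obtain ⟨c, hc⟩ := Infinite.exists_notMem_finset S
  refine ⟨c, fun x hx hbad => hc ?_⟩
  have hΨ : (WeierstrassCurve.ΨSq W (n : ℤ)).eval x ≠ 0 := by
    intro h0
    rw [eval_fib, h0, mul_zero, sub_zero] at hx
    exact eval_Φ_ne_zero_of_eval_ΨSq_eq_zero hΔ hn h0 hx
  rw [hS, Finset.mem_image]
  refine ⟨x, ?_, ?_⟩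
  · rw [Multiset.mem_toFinset, mem_roots (badPoly_ne_zero W hn2)]
    exact hbad
  · rw [eval_fib, sub_eq_zero] at hx
    rw [hx, mul_div_assoc, div_self hΨ, mul_one]

omit [DecidableEq F] in
theorem separable_fib [IsAlgClosed F] {n : ℕ} {c : F} (hc : Generic W n c) :
    (fib W n c).Separable := by
  rw [separable_def, Polynomial.isCoprime_iff_aeval_ne_zero_of_isAlgClosed (k := F) F]
  intro a
  by_contra hcon
  rw [not_or, not_not, not_not] at hcon
  obtain ⟨h1, h2⟩ := hcon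
  rw [coe_aeval_eq_eval] at h1 h2
  have hw := eval_wr_ne_zero_of_badPoly (hc a h1)
  apply hw
  rw [eval_fib, sub_eq_zero] at h1
  rw [eval_derivative_fib, sub_eq_zero] at h2
  rw [wr, eval_sub, eval_mul, eval_mul, h1, h2]
  ring

theorem card_roots_fib [IsAlgClosed F] {n : ℕ} (hn : 1 ≤ n) {c : F} (hc : Generic W n c) :
    (fib W n c).roots.toFinset.card = n ^ 2 := by
  rw [Multiset.toFinset_card_of_nodup (nodup_roots (separable_fib hc)),
    IsAlgClosed.card_roots_eq_natDegree, natDegree_fib W hn]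

/-- For generic `c` and a point `Q` with `x`-coordinate `c`, every root `x` of `fib c` is the
`x`-coordinate of a point `P` with `n • P = Q`. -/
theorem exists_point_of_root {n : ℕ} (hn : 1 ≤ n) {c : F} (hc : Generic W n c)
    {yc : F} (hQ : W.Nonsingular c yc) {x : F} (hx : (fib W n c).eval x = 0)
    {y : F} (h : W.Nonsingular x y) :
    ∃ (y' : F) (h' : W.Nonsingular x y'), n • Point.some x y' h' = Point.some c yc hQ := by
  have hb := hc x hx
  obtain ⟨xn, yn, hn', e, e'⟩ := Link.x_nsmul (CountFinal.eds2 W) h n hn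
    (fun k hk1 hkn => eval_ΨSq_ne_zero_of_badPoly hb hk1 hkn)
  have hΨ := eval_ΨSq_ne_zero_of_badPoly hb hn le_rfl
  rw [eval_fib, sub_eq_zero] at hx
  have hxn : xn = c := mul_right_cancel₀ hΨ (e'.trans hx)
  subst hxn
  rcases Y_eq_of_X_eq hn'.1 hQ.1 rfl with hy | hy
  · subst hy
    exact ⟨y, h, e⟩
  · refine ⟨W.negY x y, (nonsingular_neg ..).mpr h, ?_⟩
    have : -(n • Point.some x y h) = Point.some xn yc hQ := by
      rw [e, Point.neg_some]
      congr 1
      rw [hy, negY_negY]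
    rw [← this, ← smul_neg, Point.neg_some]

/-- Lower bound: the `n`-torsion has at least `n²` elements. -/
theorem le_card_torsionBy [IsAlgClosed F] [CharZero F] (hΔ : W.Δ ≠ 0) {n : ℕ} (hn : Odd n)
    (hn2 : 2 ≤ n) : n ^ 2 ≤ Nat.card (Submodule.torsionBy ℤ W.Point (n : ℤ)) := by
  classical
  have hn1 : 1 ≤ n := by omega
  have hnF : (n : F) ≠ 0 := Nat.cast_ne_zero.mpr (by omega)
  obtain ⟨c, hc⟩ := exists_generic hΔ hn hn2
  obtain ⟨yc, hyc⟩ := Fermat.Agent.S51.exists_equation W c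
  have hQ : W.Nonsingular c yc := (equation_iff_nonsingular_of_Δ_ne_zero hΔ).mp hyc
  set R : Finset F := (fib W n c).roots.toFinset with hRdef
  have hR : R.card = n ^ 2 := card_roots_fib hn1 hc
  have key : ∀ x : R, ∃ P : W.Point, n • P = Point.some c yc hQ ∧
      ∃ (y : F) (h : W.Nonsingular (x : F) y), P = Point.some (x : F) y h := by
    rintro ⟨x, hx⟩
    have hx0 : (fib W n c).eval x = 0 := by
      rw [hRdef, Multiset.mem_toFinset, mem_roots (fib_ne_zero W hn1 c)] at hx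
      exact hx
    obtain ⟨y, hy⟩ := Fermat.Agent.S51.exists_equation W x
    have h : W.Nonsingular x y := (equation_iff_nonsingular_of_Δ_ne_zero hΔ).mp hy
    obtain ⟨y', h', e⟩ := exists_point_of_root hn1 hc hQ hx0 h
    exact ⟨Point.some x y' h', e, y', h', rfl⟩
  choose Pt hPt1 hPt2 using key
  have hne : R.Nonempty := Finset.card_pos.mp (by rw [hR]; positivity)
  obtain ⟨x0, hx0⟩ := hne
  let f : R → Submodule.torsionBy ℤ W.Point (n : ℤ) := fun x =>
    ⟨Pt x - Pt ⟨x0, hx0⟩, by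
      rw [Submodule.mem_torsionBy_iff, natCast_zsmul, smul_sub, hPt1, hPt1, sub_self]⟩
  have hf : Function.Injective f := by
    intro x x' hxx'
    have h1 : Pt x - Pt ⟨x0, hx0⟩ = Pt x' - Pt ⟨x0, hx0⟩ := congrArg Subtype.val hxx'
    have h2 : Pt x = Pt x' := sub_left_injective h1
    obtain ⟨y, h, e⟩ := hPt2 x
    obtain ⟨y', h', e'⟩ := hPt2 x'
    rw [e, e'] at h2
    exact Subtype.ext (Point.some.inj h2).1
  have := CountFinal.finite_torsionBy (W := W) hn hnF
  calc n ^ 2 = Fintype.card R := by rw [Fintype.card_coe, hR]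
    _ = Nat.card R := Nat.card_eq_fintype_card.symm
    _ ≤ Nat.card (Submodule.torsionBy ℤ W.Point (n : ℤ)) := Nat.card_le_card_of_injective f hf

/-- **Exact count**: over an algebraically closed field of characteristic zero, an elliptic curve
has exactly `n²` points killed by the odd number `n`. -/
theorem card_torsionBy_eq [IsAlgClosed F] [CharZero F] (hΔ : W.Δ ≠ 0) {n : ℕ} (hn : Odd n) :
    Nat.card (Submodule.torsionBy ℤ W.Point (n : ℤ)) = n ^ 2 := by
  have hnF : (n : F) ≠ 0 := Nat.cast_ne_zero.mpr hn.pos.ne'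
  refine le_antisymm (CountFinal.card_torsionBy_le hn hnF) ?_
  rcases Nat.lt_or_ge n 2 with h | h
  · have h1 : n = 1 := by have := hn.pos; omega
    subst h1
    have : 0 < Nat.card (Submodule.torsionBy ℤ W.Point ((1 : ℕ) : ℤ)) := by
      have := CountFinal.finite_torsionBy (W := W) hn hnF
      exact Nat.card_pos
    simpa using this
  · exact le_card_torsionBy hΔ hn h

/-- For an odd prime `p`, the `p`-torsion is a `2`-dimensional `𝔽_p`-vector space. -/
theorem finrank_torsionBy_eq_two [IsAlgClosed F] [CharZero F] (hΔ : W.Δ ≠ 0) {p : ℕ}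
    [hp : Fact p.Prime] (hp2 : p ≠ 2) [Module (ZMod p) (Submodule.torsionBy ℤ W.Point (p : ℤ))] :
    Module.finrank (ZMod p) (Submodule.torsionBy ℤ W.Point (p : ℤ)) = 2 := by
  classical
  have hodd : Odd p := hp.out.odd_of_ne_two hp2
  have hpF : (p : F) ≠ 0 := Nat.cast_ne_zero.mpr hp.out.ne_zero
  have := CountFinal.finite_torsionBy (W := W) hodd hpF
  have hcard := card_torsionBy_eq (W := W) hΔ hodd
  have : Fintype (Submodule.torsionBy ℤ W.Point (p : ℤ)) := Fintype.ofFinite _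
  have hc : Fintype.card (Submodule.torsionBy ℤ W.Point (p : ℤ)) =
      p ^ Module.finrank (ZMod p) (Submodule.torsionBy ℤ W.Point (p : ℤ)) := by
    have := Module.card_eq_pow_finrank (K := ZMod p)
      (V := Submodule.torsionBy ℤ W.Point (p : ℤ))
    rwa [ZMod.card] at this
  rw [Nat.card_eq_fintype_card, hc] at hcard
  exact Nat.pow_right_injective hp.out.two_le hcard

end Fermat.Agent.DivPoly.CardEq29
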