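import Mathlib

/-!
# Ward's theorem: the doubling recurrences imply the elliptic-net relations

Abstract core: over a domain, a sequence `W : ℤ → U` without zeros away from `0` that satisfies
the two doubling families `ER(m+1, m-1, 1, 0) = 0` and `ER(m+1, m, 1, 0) = 0` satisfies every
relation `ERₐ(a, b, c, d) = 0` for sorted same-parity `a > b > c > d ≥ 0`.

The proof is an induction on the level `(a + b) / 2`, using the formal five-term syzygies between
the Pfaffian-like relators `atomRel` and the averaging symmetry `atomRel_avg_sub`.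
-/

namespace Fermat.Agent.DivPoly.EDS

open IsEllipticNet

section Syzygy

variable {R : Type*} [CommRing R] (W : ℤ → R)

/-- Five-term syzygy, pivot = last index. -/
lemma syz_last (a b c d e : ℤ) :
    atom W a e * atomRel W b c d e - atom W b e * atomRel W a c d e
      + atom W c e * atomRel W a b d e - atom W d e * atomRel W a b c e = 0 := by
  simp only [atomRel]; ring

/-- Five-term syzygy, pivot = third index. -/
lemma syz_third (a b c d e : ℤ) :
    atom W a c * atomRel W b c d e - atom W b c * atomRel W a c d e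
      + atom W c d * atomRel W a b c e - atom W c e * atomRel W a b c d = 0 := by
  simp only [atomRel]; ring

end Syzygy

section Net

variable {U : Type*} [CommRing U] [IsDomain U] {W : ℤ → U}

/-- All sorted same-parity relations of level `< N` hold. -/
def Lower (W : ℤ → U) (N : ℤ) : Prop :=
  ∀ a b c d : ℤ, b < a → c < b → d < c → 0 ≤ d → a % 2 = d % 2 → b % 2 = d % 2 →
    c % 2 = d % 2 → a + b < 2 * N → atomRel W a b c d = 0

lemma atom_ne_zero (hne : ∀ k : ℤ, k ≠ 0 → W k ≠ 0) {x y : ℤ} (hxy : y < x) (hy : 0 ≤ y)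
    (hpar : x % 2 = y % 2) : atom W x y ≠ 0 := by
  unfold atom
  rw [Int.tdiv_eq_ediv_of_nonneg (by omega), Int.tdiv_eq_ediv_of_nonneg (by omega)]
  exact mul_ne_zero (hne _ (by omega)) (hne _ (by omega))

/-- Moving the third argument inside a class. -/
lemma move_third (hne : ∀ k : ℤ, k ≠ 0 → W k ≠ 0) {N : ℤ} (hL : Lower W N) {a b x x' y : ℤ}
    (hab : a + b = 2 * N) (h1 : b < a) (h2 : x < b) (h3 : x' < x) (h4 : y < x') (h5 : 0 ≤ y)
    (pa : a % 2 = y % 2) (pb : b % 2 = y % 2) (px : x % 2 = y % 2) (px' : x' % 2 = y % 2) :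
    atomRel W a b x y = 0 ↔ atomRel W a b x' y = 0 := by
  have hs := syz_last W a b x x' y
  rw [hL b x x' y h2 h3 h4 h5 pb px px' (by omega), hL a x x' y (by omega) h3 h4 h5 pa px px'
    (by omega)] at hs
  have n1 : atom W x y ≠ 0 := atom_ne_zero hne (by omega) h5 px
  have n2 : atom W x' y ≠ 0 := atom_ne_zero hne h4 h5 px'
  constructor
  · intro h
    rw [h] at hs
    have : atom W x y * atomRel W a b x' y = 0 := by linear_combination hs
    exact (mul_eq_zero.mp this).resolve_left n1
  · intro h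
    rw [h] at hs
    have : atom W x' y * atomRel W a b x y = 0 := by linear_combination -hs
    exact (mul_eq_zero.mp this).resolve_left n2

/-- Moving the fourth argument inside a class. -/
lemma move_fourth (hne : ∀ k : ℤ, k ≠ 0 → W k ≠ 0) {N : ℤ} (hL : Lower W N) {a b x y y' : ℤ}
    (hab : a + b = 2 * N) (h1 : b < a) (h2 : x < b) (h3 : y < x) (h4 : y' < y) (h5 : 0 ≤ y')
    (pa : a % 2 = y' % 2) (pb : b % 2 = y' % 2) (px : x % 2 = y' % 2) (py : y % 2 = y' % 2) :
    atomRel W a b x y = 0 ↔ atomRel W a b x y' = 0 := by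
  have hs := syz_third W a b x y y'
  rw [hL b x y y' h2 h3 h4 h5 pb px py (by omega), hL a x y y' (by omega) h3 h4 h5 pa px py
    (by omega)] at hs
  have n1 : atom W x y ≠ 0 := atom_ne_zero hne h3 (by omega) (by omega)
  have n2 : atom W x y' ≠ 0 := atom_ne_zero hne (by omega) h5 px
  constructor
  · intro h
    rw [h] at hs
    have : atom W x y * atomRel W a b x y' = 0 := by linear_combination hs
    exact (mul_eq_zero.mp this).resolve_left n1
  · intro h
    rw [h] at hs
    have : atom W x y' * atomRel W a b x y = 0 := by linear_combination -hs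
    exact (mul_eq_zero.mp this).resolve_left n2

/-- Class completeness: one vanishing relation with top pair `(a, b)` gives all of them. -/
lemma class_complete (hne : ∀ k : ℤ, k ≠ 0 → W k ≠ 0) {N : ℤ} (hL : Lower W N) {a b e : ℤ}
    (hab : a + b = 2 * N) (h1 : b < a) (he : e = 0 ∨ e = 1) (pa : a % 2 = e % 2)
    (pb : b % 2 = e % 2) (hb : 2 + e < b) (h0 : atomRel W a b (2 + e) e = 0) {x y : ℤ}
    (h2 : x < b) (h3 : y < x) (h4 : 0 ≤ y) (px : x % 2 = e % 2) (py : y % 2 = e % 2) :
    atomRel W a b x y = 0 := by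
  have he0 : 0 ≤ e := by omega
  -- first move the third argument
  have hx : atomRel W a b x e = 0 := by
    rcases eq_or_lt_of_le (show 2 + e ≤ x by omega) with h | h
    · rw [← h]; exact h0
    · exact (move_third hne hL hab h1 h2 h (by omega) he0 pa pb px (by omega)).mpr h0
  rcases eq_or_lt_of_le (show e ≤ y by omega) with h | h
  · rw [← h]; exact hx
  · exact (move_fourth hne hL hab h1 h2 h3 h he0 pa pb px py).mpr hx

/-- The minimal relation of the class with top pair `(N + 1, N - 1)`. -/
lemma class_one_seed (heven : ∀ m : ℤ, rel W (m + 1) (m - 1) 1 0 = 0)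
    (hodd : ∀ m : ℤ, rel W (m + 1) m 1 0 = 0) (N : ℤ) :
    atomRel W (N + 1) (N - 1) (2 + (N + 1) % 2) ((N + 1) % 2) = 0 := by
  rcases Int.even_or_odd' N with ⟨m, rfl | rfl⟩
  · -- `N = 2m`: average of the even doubling relation
    have h := heven m
    rw [rel_eq] at h
    rw [← atomRel_avg_sub W (a := 2 * (m + 1) + 0) (b := 2 * (m - 1) + 0) (c := 2 * 1 + 0)
      (d := 0) (by omega)] at h
    rw [← atomRel_neg₄]
    convert h using 2 <;> omega
  · -- `N = 2m + 1`: the odd doubling relation
    have h := hodd m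
    rw [rel_eq] at h
    convert h using 2 <;> omega

/-- The induction step: all relations of level exactly `N`. -/
lemma level_step (hne : ∀ k : ℤ, k ≠ 0 → W k ≠ 0)
    (heven : ∀ m : ℤ, rel W (m + 1) (m - 1) 1 0 = 0)
    (hodd : ∀ m : ℤ, rel W (m + 1) m 1 0 = 0) {N : ℤ} (hL : Lower W N) {a b c d : ℤ}
    (hab : a + b = 2 * N) (h1 : b < a) (h2 : c < b) (h3 : d < c) (h4 : 0 ≤ d)
    (pa : a % 2 = d % 2) (pb : b % 2 = d % 2) (pc : c % 2 = d % 2) :
    atomRel W a b c d = 0 := by
  set e : ℤ := d % 2 with he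
  have he01 : e = 0 ∨ e = 1 := by omega
  -- class one is complete
  have hc1 : ∀ x y : ℤ, x < N - 1 → y < x → 0 ≤ y → x % 2 = (N + 1) % 2 → y % 2 = (N + 1) % 2 →
      atomRel W (N + 1) (N - 1) x y = 0 := by
    intro x y hx hy hy0 px py
    exact class_complete hne hL (a := N + 1) (b := N - 1) (e := (N + 1) % 2) (by ring) (by omega)
      (by omega) (by omega) (by omega) (by omega) (class_one_seed heven hodd N) hx hy hy0
      (by omega) (by omega)
  -- the minimal relation of the class of `(a, b)`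
  have hmin : atomRel W a b (2 + e) e = 0 := by
    rw [← atomRel_avg_sub W (a := a) (b := b) (c := 2 + e) (d := e) (by omega)]
    have hs : (a + b + (2 + e) + e) / 2 = N + 1 + e := by omega
    rw [hs]
    rcases eq_or_lt_of_le (show N + 1 ≤ a by omega) with h | h
    · -- `a = N + 1`: this is the seed of class one itself
      have := class_one_seed heven hodd N
      convert this using 2 <;> omega
    · rw [← atomRel_neg₄]
      have := hc1 (N + 1 + e - b) (-(N + 1 + e - a)) (by omega) (by omega) (by omega) (by omega)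
        (by omega)
      convert this using 2 <;> omega
  exact class_complete hne hL hab h1 he01 (by omega) (by omega) (by omega) hmin h2 h3 h4
    (by omega) (by omega)

/-- **Ward's theorem, sorted form.** -/
theorem atomRel_eq_zero_of_sorted (hne : ∀ k : ℤ, k ≠ 0 → W k ≠ 0)
    (heven : ∀ m : ℤ, rel W (m + 1) (m - 1) 1 0 = 0)
    (hodd : ∀ m : ℤ, rel W (m + 1) m 1 0 = 0) {a b c d : ℤ}
    (h1 : b < a) (h2 : c < b) (h3 : d < c) (h4 : 0 ≤ d)
    (pa : a % 2 = d % 2) (pb : b % 2 = d % 2) (pc : c % 2 = d % 2) :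
    atomRel W a b c d = 0 := by
  have key : ∀ n : ℕ, Lower W n := by
    intro n
    induction n with
    | zero =>
      intro a b c d h1 h2 h3 h4 _ _ _ h
      omega
    | succ n ih =>
      intro a b c d h1 h2 h3 h4 pa pb pc h
      by_cases hlt : a + b < 2 * (n : ℤ)
      · exact ih a b c d h1 h2 h3 h4 pa pb pc hlt
      · have hab : a + b = 2 * (n : ℤ) := by push_cast at h; omega
        exact level_step hne heven hodd ih hab h1 h2 h3 h4 pa pb pc
  exact key (a + b).toNat.succ a b c d h1 h2 h3 h4 pa pb pc (by push_cast; omega)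

/-- Swapping the first two arguments negates the relator. -/
lemma atomRel_swap₁₂ (odd : W.Odd) (a b c d : ℤ) : atomRel W b a c d = -atomRel W a b c d := by
  have h := neg_atom odd a b
  simp only [atomRel]
  linear_combination -atom W c d * h

/-- The rank-one family `ER(p, q, 1, 0) = 0` for all integers `p`, `q`. -/
theorem rel_one_zero_eq_zero (odd : W.Odd) (h0 : W 0 = 0) (hne : ∀ k : ℤ, k ≠ 0 → W k ≠ 0)
    (heven : ∀ m : ℤ, rel W (m + 1) (m - 1) 1 0 = 0)
    (hodd : ∀ m : ℤ, rel W (m + 1) m 1 0 = 0) (p q : ℤ) : rel W p q 1 0 = 0 := by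
  rw [rel_eq, ← atomRel_abs₁ odd, ← atomRel_abs₂ odd]
  have key : ∀ a b : ℤ, 0 ≤ a → 0 ≤ b → a % 2 = 0 → b % 2 = 0 → b ≤ a →
      atomRel W a b (2 * 1 + 0) 0 = 0 := by
    intro a b ha hb pa pb hab
    rcases eq_or_lt_of_le hab with h | h
    · rw [h, atomRel_same₁₂, h0]; ring
    rcases eq_or_lt_of_le hb with hb0 | hb0
    · rw [← hb0, atomRel_same₂₄ odd, h0]; ring
    rcases eq_or_lt_of_le (show 2 ≤ b by omega) with hb2 | hb2
    · rw [← hb2, show (2 * 1 + 0 : ℤ) = 2 by norm_num, atomRel_same₂₃, h0]; ring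
    exact atomRel_eq_zero_of_sorted hne heven hodd h (by omega) (by omega) le_rfl (by omega)
      (by omega) (by omega)
  have habs : ∀ x : ℤ, |2 * x + 0| % 2 = 0 := fun x ↦ by
    rcases abs_cases (2 * x + 0) with ⟨h, _⟩ | ⟨h, _⟩ <;> rw [h] <;> omega
  rcases le_total |2 * q + 0| |2 * p + 0| with h | h
  · exact key _ _ (abs_nonneg _) (abs_nonneg _) (habs p) (habs q) h
  · rw [atomRel_swap₁₂ odd, neg_eq_zero]
    exact key _ _ (abs_nonneg _) (abs_nonneg _) (habs q) (habs p) h

/-- **Ward's theorem** in the shape "doubling formulas imply the rank-one family". -/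
theorem ward (W : ℤ → U) (hodd : ∀ n, W (-n) = -W n) (h1 : W 1 = 1)
    (hne : ∀ n, n ≠ 0 → W n ≠ 0)
    (hO : ∀ k, W (2 * k + 1) = W (k + 2) * W k ^ 3 - W (k - 1) * W (k + 1) ^ 3)
    (hE : ∀ k, W (2 * k) * W 2 = W (k - 1) ^ 2 * W k * W (k + 2) - W (k - 2) * W k * W (k + 1) ^ 2)
    (m n : ℤ) :
    W (m + n) * W (m - n) = W (m + 1) * W (m - 1) * W n ^ 2 - W (n + 1) * W (n - 1) * W m ^ 2 := by
  have h0 : W 0 = 0 := by
    have h := hE 0
    have hm1 : W (-1) = -1 := by rw [hodd, h1]
    have hm2 : W (-2) = -W 2 := hodd 2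
    norm_num at h
    rw [hm1, hm2, h1] at h
    have h2 : W 2 ≠ 0 := hne 2 (by norm_num)
    have : W 0 * W 2 = 0 := by linear_combination -h
    exact (mul_eq_zero.mp this).resolve_right h2
  have heven : ∀ m : ℤ, rel W (m + 1) (m - 1) 1 0 = 0 := fun m ↦ by
    rw [rel_even, h1]; linear_combination hE m
  have hodd' : ∀ m : ℤ, rel W (m + 1) m 1 0 = 0 := fun m ↦ by
    rw [rel_odd, h1]; linear_combination hO m
  have h := rel_one_zero_eq_zero hodd h0 hne heven hodd' m n
  simp only [rel, add_zero] at h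
  rw [h1] at h
  linear_combination h

end Net

end Fermat.Agent.DivPoly.EDS
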