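import Mathlib

/-!
# Division polynomials: the base case `n = 3` of the link with the group law

For a Weierstrass curve `W` over a commutative ring and an element `x`, write `D = Ψ₂Sq(x)`,
`Φ₂ = Φ₂(x)`, `Ψ₃ = Ψ₃(x)`.  The `x`-coordinate `x₂` of `2P` satisfies `x₂ D = Φ₂`, and the
`x`-coordinate `x₃` of `3P = 2P + P` is obtained from the sum formula
`(x₃ + x)(x₂ - x)² = pairSum(x₂, x)`.  We prove the resulting polynomial identity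
`x₃ Ψ₃² = Φ₃` in the form needed for the induction `x(nP) ΨSq_n(x) = Φ_n(x)`.
-/

set_option autoImplicit false

open Polynomial

namespace Fermat.Agent.DivPoly.LinkBase

section ring

variable {R : Type*} [CommRing R] (W : WeierstrassCurve R)

theorem eval_Ψ₂Sq (x : R) :
    (W.Ψ₂Sq).eval x = 4 * x ^ 3 + W.b₂ * x ^ 2 + 2 * W.b₄ * x + W.b₆ := by
  simp [WeierstrassCurve.Ψ₂Sq]

theorem eval_Ψ₃ (x : R) :
    (W.Ψ₃).eval x = 3 * x ^ 4 + W.b₂ * x ^ 3 + 3 * W.b₄ * x ^ 2 + 3 * W.b₆ * x + W.b₈ := by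
  simp [WeierstrassCurve.Ψ₃]

theorem eval_preΨ₄ (x : R) :
    (W.preΨ₄).eval x = 2 * x ^ 6 + W.b₂ * x ^ 5 + 5 * W.b₄ * x ^ 4 + 10 * W.b₆ * x ^ 3
      + 10 * W.b₈ * x ^ 2 + (W.b₂ * W.b₈ - W.b₄ * W.b₆) * x + (W.b₄ * W.b₈ - W.b₆ ^ 2) := by
  simp [WeierstrassCurve.preΨ₄]

theorem eval_Φ_two (x : R) :
    (W.Φ 2).eval x = x ^ 4 - W.b₄ * x ^ 2 - 2 * W.b₆ * x - W.b₈ := by
  simp [WeierstrassCurve.Φ_two]

theorem eval_Φ_three (x : R) :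
    (W.Φ 3).eval x = x * (W.Ψ₃).eval x ^ 2 - (W.preΨ₄).eval x * (W.Ψ₂Sq).eval x := by
  simp [WeierstrassCurve.Φ_three]

theorem eval_ΨSq_three (x : R) : (W.ΨSq 3).eval x = (W.Ψ₃).eval x ^ 2 := by
  simp [WeierstrassCurve.ΨSq_three]

theorem eval_ΨSq_two (x : R) : (W.ΨSq 2).eval x = (W.Ψ₂Sq).eval x := by
  simp [WeierstrassCurve.ΨSq_two]

/-- `Φ₂ - x Ψ₂Sq = -Ψ₃` (evaluated at `x`). -/
theorem eval_Φ_two_sub (x : R) :
    (W.Φ 2).eval x - x * (W.Ψ₂Sq).eval x = -(W.Ψ₃).eval x := by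
  rw [eval_Φ_two, eval_Ψ₂Sq, eval_Ψ₃]; ring

/-- The polynomial identity behind `x(3P) Ψ₃² = Φ₃`: with `D = Ψ₂Sq(x)`, and `x₂ = Φ₂/D`
homogenised, `D² · pairSum(Φ₂/D, x) - 2 x Ψ₃² = -preΨ₄ · D`. -/
theorem base_three_poly (x : R) :
    2 * (W.Φ 2).eval x * x * ((W.Φ 2).eval x + x * (W.Ψ₂Sq).eval x)
        + W.b₂ * (W.Φ 2).eval x * x * (W.Ψ₂Sq).eval x
        + W.b₄ * ((W.Φ 2).eval x + x * (W.Ψ₂Sq).eval x) * (W.Ψ₂Sq).eval x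
        + W.b₆ * (W.Ψ₂Sq).eval x ^ 2
        - 2 * x * (W.Ψ₃).eval x ^ 2
      = -((W.preΨ₄).eval x * (W.Ψ₂Sq).eval x) := by
  rw [eval_Φ_two, eval_Ψ₂Sq, eval_Ψ₃, eval_preΨ₄]
  linear_combination (x ^ 2 * (4 * x ^ 3 + W.b₂ * x ^ 2 + 2 * W.b₄ * x + W.b₆)) * W.b_relation

/-- **Base case `n = 3`.** If `x₂` is the `x`-coordinate of `2P` (`x₂ Ψ₂Sq(x) = Φ₂(x)`) and `x₃`
is obtained from the sum formula `(x₃ + x)(x₂ - x)² = pairSum(x₂, x)` (i.e. `x₃ = x(2P + P)`; the right-hand side is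
`S05.PairFormulas.pairSum W x₂ x` unfolded),
then `x₃ ΨSq₃(x) = Φ₃(x)`.  Pure commutative algebra, no nonvanishing hypotheses. -/
theorem base_three {x x₂ x₃ : R} (h2 : x₂ * (W.Ψ₂Sq).eval x = (W.Φ 2).eval x)
    (h3 : (x₃ + x) * (x₂ - x) ^ 2 =
      2 * x₂ * x * (x₂ + x) + W.b₂ * x₂ * x + W.b₄ * (x₂ + x) + W.b₆) :
    x₃ * (W.ΨSq 3).eval x = (W.Φ 3).eval x := by
  rw [eval_ΨSq_three, eval_Φ_three]
  have hA := eval_Φ_two_sub W x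
  have hB := base_three_poly W x
  generalize (W.Φ 2).eval x = Φ2 at *
  generalize (W.Ψ₃).eval x = Ψ3 at *
  generalize (W.Ψ₂Sq).eval x = D at *
  generalize (W.preΨ₄).eval x = P4 at *
  subst h2
  have hΨ : Ψ3 = x * D - x₂ * D := by linear_combination hA
  subst hΨ
  linear_combination D ^ 2 * h3 + hB

/-- the difference form: `(x₃ - x) Ψ₃² = -preΨ₄ Ψ₂Sq`. -/
theorem base_three_sub {x x₂ x₃ : R} (h2 : x₂ * (W.Ψ₂Sq).eval x = (W.Φ 2).eval x)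
    (h3 : (x₃ + x) * (x₂ - x) ^ 2 =
      2 * x₂ * x * (x₂ + x) + W.b₂ * x₂ * x + W.b₄ * (x₂ + x) + W.b₆) :
    (x₃ - x) * (W.Ψ₃).eval x ^ 2 = -((W.preΨ₄).eval x * (W.Ψ₂Sq).eval x) := by
  have h := base_three W h2 h3
  rw [eval_ΨSq_three, eval_Φ_three] at h
  linear_combination h

/-- `(x₂ - x) Ψ₂Sq = -Ψ₃`. -/
theorem base_two_sub {x x₂ : R} (h2 : x₂ * (W.Ψ₂Sq).eval x = (W.Φ 2).eval x) :
    (x₂ - x) * (W.Ψ₂Sq).eval x = -(W.Ψ₃).eval x := by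
  linear_combination h2 + eval_Φ_two_sub W x

end ring

end Fermat.Agent.DivPoly.LinkBase
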