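-- Program A / Team A1 (helper3): nondegeneracy of the division-polynomial sequence at a
-- NONSINGULAR affine point: `ψ₂, ψ₃` do not vanish simultaneously, nor do `ψ₃, ψ₄`.
-- Also: the values `ψ_n(x, y)` form Mathlib's `normEDS`.
import Mathlib

set_option autoImplicit false

namespace Fermat.Agent.DivPoly.Nondeg

open WeierstrassCurve Polynomial

variable {F : Type*} [Field F] (W : WeierstrassCurve F)

/-- The value `ψ₂(x, y) = 2 y + a₁ x + a₃`. -/
def psi2v (x y : F) : F := 2 * y + W.a₁ * x + W.a₃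

/-- The value `-∂E/∂x (x, y) = 3 x ^ 2 + 2 a₂ x + a₄ - a₁ y` (numerator of the tangent slope). -/
def gv (x y : F) : F := 3 * x ^ 2 + 2 * W.a₂ * x + W.a₄ - W.a₁ * y

theorem psi2v_sq {x y : F} (h : W.toAffine.Equation x y) :
    psi2v W x y ^ 2 = W.Ψ₂Sq.eval x := by
  rw [Affine.equation_iff] at h
  simp only [psi2v, Ψ₂Sq, b₂, b₄, b₆, eval_add, eval_mul, eval_C, eval_pow, eval_X]
  linear_combination 4 * h

/-- `Ψ₃ = ψ₂ (3 x ψ₂ + a₂ ψ₂ - a₁ g) - g ^ 2` on the curve. -/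
theorem Ψ₃_eval {x y : F} (h : W.toAffine.Equation x y) :
    W.Ψ₃.eval x = psi2v W x y * (3 * x * psi2v W x y + W.a₂ * psi2v W x y - W.a₁ * gv W x y)
      - gv W x y ^ 2 := by
  rw [Affine.equation_iff] at h
  simp only [psi2v, gv, Ψ₃, b₂, b₄, b₆, b₈, eval_add, eval_mul, eval_C, eval_pow, eval_X,
    eval_ofNat]
  linear_combination (-(12 * x + (W.a₁ ^ 2 + 4 * W.a₂))) * h

/-- `preΨ₄ = (2 g + a₁ ψ₂) Ψ₃ - ψ₂ ^ 4` on the curve. -/
theorem preΨ₄_eval {x y : F} (h : W.toAffine.Equation x y) :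
    W.preΨ₄.eval x = (2 * gv W x y + W.a₁ * psi2v W x y) * W.Ψ₃.eval x - psi2v W x y ^ 4 := by
  rw [Affine.equation_iff] at h
  simp only [psi2v, gv, Ψ₃, preΨ₄, b₂, b₄, b₆, b₈, eval_add, eval_mul, eval_C, eval_pow,
    eval_X, eval_ofNat]
  linear_combination (8 * W.a₁ ^ 2 * x ^ 2 + 16 * W.a₁ * W.a₃ * x + 16 * W.a₁ * x * y
    + 16 * W.a₂ * x ^ 2 + 8 * W.a₃ ^ 2 + 16 * W.a₃ * y + 16 * W.a₄ * x + 16 * W.a₆ + 16 * x ^ 3
    + 16 * y ^ 2) * h

/-- At a nonsingular point `ψ₂` and `ψ₃` do not vanish simultaneously. -/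
theorem not_psi2_psi3 {x y : F} (h : W.toAffine.Nonsingular x y) :
    ¬ (psi2v W x y = 0 ∧ W.Ψ₃.eval x = 0) := by
  rintro ⟨h2, h3⟩
  have hE0 : W.toAffine.Equation x y := h.1
  rw [Affine.nonsingular_iff'] at h
  obtain ⟨hE, hns⟩ := h
  have hg : gv W x y ≠ 0 := by
    rcases hns with hns | hns
    · intro hg; apply hns; rw [gv] at hg; linear_combination -hg
    · exact absurd h2 hns
  rw [Ψ₃_eval W hE0, h2] at h3
  have : gv W x y ^ 2 = 0 := by linear_combination -h3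
  exact hg (pow_eq_zero_iff two_ne_zero |>.mp this)

/-- At a nonsingular point `ψ₃` and `ψ₄ = preΨ₄ ψ₂` do not vanish simultaneously. -/
theorem not_psi3_psi4 {x y : F} (h : W.toAffine.Nonsingular x y) :
    ¬ (W.Ψ₃.eval x = 0 ∧ W.preΨ₄.eval x * psi2v W x y = 0) := by
  rintro ⟨h3, h4⟩
  by_cases h2 : psi2v W x y = 0
  · exact not_psi2_psi3 W h ⟨h2, h3⟩
  · have h4' : W.preΨ₄.eval x = 0 := (mul_eq_zero.mp h4).resolve_right h2
    rw [preΨ₄_eval W h.1, h3] at h4'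
    have : psi2v W x y ^ 4 = 0 := by linear_combination -h4'
    exact h2 (pow_eq_zero_iff (by norm_num) |>.mp this)

/-- The values of the division polynomials at a point of the curve form a normalised EDS. -/
theorem normEDS_eq {x y : F} (h : W.toAffine.Equation x y) (n : ℤ) :
    normEDS (psi2v W x y) (W.Ψ₃.eval x) (W.preΨ₄.eval x) n
      = (W.preΨ n).eval x * if Even n then psi2v W x y else 1 := by
  rw [normEDS, preΨ, ← coe_evalRingHom, map_preNormEDS, map_pow, coe_evalRingHom,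
    ← psi2v_sq W h]
  congr 2
  ring

/-- Square of the `n`-th term is `ΨSq n`. -/
theorem normEDS_sq {x y : F} (h : W.toAffine.Equation x y) (n : ℤ) :
    normEDS (psi2v W x y) (W.Ψ₃.eval x) (W.preΨ₄.eval x) n ^ 2 = (W.ΨSq n).eval x := by
  rw [normEDS_eq W h, ΨSq, mul_pow, eval_mul, eval_pow]
  split_ifs with hn
  · rw [psi2v_sq W h]
  · simp

end Fermat.Agent.DivPoly.Nondeg
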