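import Mathlib
import Fermat.Agent.S05.PairFormulas
import Fermat.Agent.DivPoly.LinkBase

/-!
# Division polynomials and the group law: the pair identity and the base cases `n = 2, 3`

For a nonsingular point `P = (x, y)` of a Weierstrass curve over a field, with
`ψ₂ = 2y + a₁x + a₃`, `Ψ₃ = Ψ₃(x)`, `preΨ₄ = preΨ₄(x)`:

* `pair_identity` (S0): for `Q = (u, v)`, `u ≠ x`:
  `(x(Q+P) - x)(x(Q-P) - x)(u - x)² = Φ₂(x) - u Ψ₂²(x)`;
* `two_nsmul` (B2): if `2P ≠ 0` then `ψ₂ ≠ 0` and `x(2P) = x - Ψ₃ / ψ₂²`;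
* `three_nsmul` (B3): if `2P ≠ 0` and `3P ≠ 0` then `Ψ₃ ≠ 0` and
  `x(3P) = x - (preΨ₄ ψ₂) ψ₂ / Ψ₃²`.

(With `w n = normEDS ψ₂ Ψ₃ preΨ₄ n` these read `x(nP) = x - w(n+1) w(n-1) / w(n)²` for `n = 2, 3`.)
-/

set_option autoImplicit false

open WeierstrassCurve WeierstrassCurve.Affine Polynomial
open Fermat.Agent.S05.PairFormulas

namespace Fermat.Agent.DivPoly.Step1Base

variable {F : Type*} [Field F] {W : Affine F}

theorem psi2sq_eq_eval (x : F) : psi2sq W x = (WeierstrassCurve.Ψ₂Sq W).eval x := by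
  rw [LinkBase.eval_Ψ₂Sq, psi2sq]

theorem phi2_eq_eval (x : F) : phi2 W x = (WeierstrassCurve.Φ W 2).eval x := by
  rw [LinkBase.eval_Φ_two, phi2]

theorem eval_Ψ₃_eq (x : F) :
    (WeierstrassCurve.Ψ₃ W).eval x = x * psi2sq W x - phi2 W x := by
  rw [LinkBase.eval_Ψ₃, psi2sq, phi2]; ring

theorem psi2_eq_sub_negY (x y : F) : 2 * y + W.a₁ * x + W.a₃ = y - W.negY x y := by
  rw [negY]; ring

theorem psi2_sq {x y : F} (h : W.Equation x y) :
    (2 * y + W.a₁ * x + W.a₃) ^ 2 = psi2sq W x := (psi2sq_eq h).symm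

/-- transport of a point along an equality of `x`-coordinates -/
theorem some_congr {x x' y : F} (hx : x = x') (h : W.Nonsingular x y) :
    ∃ h' : W.Nonsingular x' y, Point.some x y h = Point.some x' y h' := by
  subst hx; exact ⟨h, rfl⟩

variable [DecidableEq F]

/-- **(S0) pair identity.** -/
theorem pair_identity {x y u v : F} (h : W.Nonsingular x y) (hQ : W.Nonsingular u v)
    (hux : u ≠ x) :
    ∃ (xp yp xm ym : F) (hp : W.Nonsingular xp yp) (hm : W.Nonsingular xm ym),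
      Point.some u v hQ + Point.some x y h = Point.some xp yp hp ∧
      Point.some u v hQ - Point.some x y h = Point.some xm ym hm ∧
      (xp - x) * (xm - x) * (u - x) ^ 2 = phi2 W x - u * psi2sq W x ∧
      (xp + xm) * (u - x) ^ 2 = pairSum W u x := by
  obtain ⟨xp, yp, xm, ym, hp, hm, h1, h2, h3, h4, -, -⟩ := add_sub_some hQ h hux
  refine ⟨xp, yp, xm, ym, hp, hm, h1, h2, ?_, h4⟩
  have e : pairProd W u x - x * pairSum W u x + x ^ 2 * (u - x) ^ 2 =
      phi2 W x - u * psi2sq W x := by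
    simp only [pairProd, pairSum, phi2, psi2sq]; ring
  rw [← e, ← h3, ← h4]; ring

/-- **(B2)** If `2P ≠ 0` then `ψ₂(P) ≠ 0` and `x(2P) = x - Ψ₃(x) / ψ₂(P)²`. -/
theorem two_nsmul {x y : F} (h : W.Nonsingular x y) (h2 : (2 : ℕ) • Point.some x y h ≠ 0) :
    2 * y + W.a₁ * x + W.a₃ ≠ 0 ∧
      ∃ (y' : F) (h' : W.Nonsingular
          (x - (WeierstrassCurve.Ψ₃ W).eval x / (2 * y + W.a₁ * x + W.a₃) ^ 2) y'),
        (2 : ℕ) • Point.some x y h = Point.some _ y' h' := by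
  have hy : y ≠ W.negY x y := by
    intro hy
    apply h2
    rw [_root_.two_nsmul]
    exact add_self_some_eq_zero h hy
  have hψ : 2 * y + W.a₁ * x + W.a₃ ≠ 0 := by
    rw [psi2_eq_sub_negY]; exact sub_ne_zero.mpr hy
  refine ⟨hψ, ?_⟩
  obtain ⟨xd, yd, hd, hadd, hxd⟩ := add_self_some h hy
  have hD : psi2sq W x = (2 * y + W.a₁ * x + W.a₃) ^ 2 := psi2sq_eq h.1
  have e : xd = x - (WeierstrassCurve.Ψ₃ W).eval x / (2 * y + W.a₁ * x + W.a₃) ^ 2 := by
    rw [eval_Ψ₃_eq, ← hD]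
    have hD0 : psi2sq W x ≠ 0 := by rw [hD]; exact pow_ne_zero _ hψ
    field_simp
    linear_combination hxd
  obtain ⟨h', he⟩ := some_congr e hd
  exact ⟨yd, h', by rw [_root_.two_nsmul, hadd, he]⟩

/-- **(B3)** If `2P ≠ 0` and `3P ≠ 0` then `Ψ₃(x) ≠ 0` and
`x(3P) = x - (preΨ₄(x) ψ₂(P)) ψ₂(P) / Ψ₃(x)²`. -/
theorem three_nsmul {x y : F} (h : W.Nonsingular x y) (h2 : (2 : ℕ) • Point.some x y h ≠ 0)
    (h3 : (3 : ℕ) • Point.some x y h ≠ 0) :
    (WeierstrassCurve.Ψ₃ W).eval x ≠ 0 ∧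
      ∃ (y' : F) (h' : W.Nonsingular
          (x - (WeierstrassCurve.preΨ₄ W).eval x * (2 * y + W.a₁ * x + W.a₃) *
            (2 * y + W.a₁ * x + W.a₃) / (WeierstrassCurve.Ψ₃ W).eval x ^ 2) y'),
        (3 : ℕ) • Point.some x y h = Point.some _ y' h' := by
  obtain ⟨hψ, y₂, h₂, e2⟩ := two_nsmul h h2
  set ψ := 2 * y + W.a₁ * x + W.a₃ with hψdef
  set P := Point.some x y h with hP
  have e3 : (3 : ℕ) • P = (2 : ℕ) • P + P := succ_nsmul P 2
  have hD : (WeierstrassCurve.Ψ₂Sq W).eval x = ψ ^ 2 := by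
    rw [← psi2sq_eq_eval]; exact psi2sq_eq h.1
  -- `Ψ₃(x) ≠ 0`
  have hΨ : (WeierstrassCurve.Ψ₃ W).eval x ≠ 0 := by
    intro h0
    have hx : x - (WeierstrassCurve.Ψ₃ W).eval x / ψ ^ 2 = x := by rw [h0]; simp
    rcases (Point.X_eq_iff (h₁ := h₂) (h₂ := h)).mp hx with h' | h'
    · -- `2P = P`, so `P = 0`
      have : P = 0 := by
        have e : (2 : ℕ) • P = P := by rw [e2, h']
        rw [_root_.two_nsmul] at e
        exact add_eq_right.mp e
      exact Point.some_ne_zero h this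
    · -- `2P = -P`, so `3P = 0`
      apply h3
      rw [e3, e2, h', ← hP, neg_add_cancel]
  refine ⟨hΨ, ?_⟩
  have hx2 : x - (WeierstrassCurve.Ψ₃ W).eval x / ψ ^ 2 ≠ x := by
    intro hx
    apply hΨ
    have : (WeierstrassCurve.Ψ₃ W).eval x / ψ ^ 2 = 0 := by linear_combination -hx
    rcases div_eq_zero_iff.mp this with h0 | h0
    · exact h0
    · exact absurd h0 (pow_ne_zero _ hψ)
  obtain ⟨xp, yp, xm, ym, hp, hm, hadd, hsub, -, hsum⟩ := pair_identity h h₂ hx2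
  -- `2P - P = P` so `xm = x`
  have hxm : xm = x := by
    have : Point.some xm ym hm = P := by
      rw [← hsub, ← e2, _root_.two_nsmul, add_sub_cancel_right]
    rw [hP] at this
    exact ((Point.some.injEq ..).mp this).1
  rw [hxm] at hsum
  -- the algebra: base case of `LinkBase`
  have hx2' : (x - (WeierstrassCurve.Ψ₃ W).eval x / ψ ^ 2) * (WeierstrassCurve.Ψ₂Sq W).eval x =
      (WeierstrassCurve.Φ W 2).eval x := by
    rw [hD]
    have := LinkBase.eval_Φ_two_sub W x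
    rw [hD] at this
    have hψ2 : ψ ^ 2 ≠ 0 := pow_ne_zero _ hψ
    field_simp
    linear_combination -this
  have hs : (xp + x) * ((x - (WeierstrassCurve.Ψ₃ W).eval x / ψ ^ 2) - x) ^ 2 =
      2 * (x - (WeierstrassCurve.Ψ₃ W).eval x / ψ ^ 2) * x *
        ((x - (WeierstrassCurve.Ψ₃ W).eval x / ψ ^ 2) + x) +
      W.b₂ * (x - (WeierstrassCurve.Ψ₃ W).eval x / ψ ^ 2) * x +
      W.b₄ * ((x - (WeierstrassCurve.Ψ₃ W).eval x / ψ ^ 2) + x) + W.b₆ := by
    rw [hsum, pairSum]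
  have key := LinkBase.base_three_sub W hx2' hs
  rw [hD] at key
  have e : xp = x - (WeierstrassCurve.preΨ₄ W).eval x * ψ * ψ /
      (WeierstrassCurve.Ψ₃ W).eval x ^ 2 := by
    have hΨ2 : (WeierstrassCurve.Ψ₃ W).eval x ^ 2 ≠ 0 := pow_ne_zero _ hΨ
    field_simp
    linear_combination key
  obtain ⟨h', he⟩ := some_congr e hp
  exact ⟨yp, h', by rw [e3, e2, hadd, he]⟩

/-- `(B2)` phrased with `w n = normEDS ψ₂ Ψ₃(x) preΨ₄(x) n`. -/
theorem two_nsmul_normEDS {x y : F} (h : W.Nonsingular x y)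
    (h2 : (2 : ℕ) • Point.some x y h ≠ 0) :
    normEDS (2 * y + W.a₁ * x + W.a₃) ((WeierstrassCurve.Ψ₃ W).eval x)
        ((WeierstrassCurve.preΨ₄ W).eval x) 2 ≠ 0 ∧
      ∃ (y' : F) (h' : W.Nonsingular
          (x - normEDS (2 * y + W.a₁ * x + W.a₃) ((WeierstrassCurve.Ψ₃ W).eval x)
                ((WeierstrassCurve.preΨ₄ W).eval x) 3 *
              normEDS (2 * y + W.a₁ * x + W.a₃) ((WeierstrassCurve.Ψ₃ W).eval x)
                ((WeierstrassCurve.preΨ₄ W).eval x) 1 /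
              normEDS (2 * y + W.a₁ * x + W.a₃) ((WeierstrassCurve.Ψ₃ W).eval x)
                ((WeierstrassCurve.preΨ₄ W).eval x) 2 ^ 2) y'),
        (2 : ℕ) • Point.some x y h = Point.some _ y' h' := by
  simp only [normEDS_one, normEDS_two, normEDS_three, mul_one]
  exact two_nsmul h h2

/-- `(B3)` phrased with `w n = normEDS ψ₂ Ψ₃(x) preΨ₄(x) n`. -/
theorem three_nsmul_normEDS {x y : F} (h : W.Nonsingular x y)
    (h2 : (2 : ℕ) • Point.some x y h ≠ 0) (h3 : (3 : ℕ) • Point.some x y h ≠ 0) :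
    normEDS (2 * y + W.a₁ * x + W.a₃) ((WeierstrassCurve.Ψ₃ W).eval x)
        ((WeierstrassCurve.preΨ₄ W).eval x) 3 ≠ 0 ∧
      ∃ (y' : F) (h' : W.Nonsingular
          (x - normEDS (2 * y + W.a₁ * x + W.a₃) ((WeierstrassCurve.Ψ₃ W).eval x)
                ((WeierstrassCurve.preΨ₄ W).eval x) 4 *
              normEDS (2 * y + W.a₁ * x + W.a₃) ((WeierstrassCurve.Ψ₃ W).eval x)
                ((WeierstrassCurve.preΨ₄ W).eval x) 2 /
              normEDS (2 * y + W.a₁ * x + W.a₃) ((WeierstrassCurve.Ψ₃ W).eval x)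
                ((WeierstrassCurve.preΨ₄ W).eval x) 3 ^ 2) y'),
        (3 : ℕ) • Point.some x y h = Point.some _ y' h' := by
  simp only [normEDS_two, normEDS_three, normEDS_four]
  exact three_nsmul h h2 h3

end Fermat.Agent.DivPoly.Step1Base
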