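import Mathlib

/-!
# Torsion points and division polynomials: the final `iff` (A1b-R3)

For a nonsingular point `P = (x, y)` of a Weierstrass curve over a field and `n ≥ 1`:
`n • P = 0 ↔ (W.ΨSq n).eval x = 0`, and for odd `n`: `↔ (W.preΨ n).eval x = 0`.

This file contains
* the bridge between the values `ψ_n(x, y) = normEDS ψ₂(x,y) Ψ₃(x) preΨ₄(x) n` and the
  univariate polynomials `W.ΨSq n`, `W.preΨ n`;
* the core argument, stated against abstract inputs (rank of apparition for the values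
  `ΨSq_k(x)`, and the two outputs (L3), (L4) of the link with the group law).
-/

set_option autoImplicit false

open WeierstrassCurve WeierstrassCurve.Affine Polynomial

namespace Fermat.Agent.DivPoly.Torsion

section Bridge

variable {F : Type*} [Field F] (W : Affine F)

/-- The value `ψ₂(x, y) = 2y + a₁x + a₃`. -/
def psi2Val (x y : F) : F := 2 * y + W.a₁ * x + W.a₃

/-- The value `ψ_n(x, y)` of the `n`-th division polynomial, as a normalised EDS. -/
noncomputable def psiVal (x y : F) (n : ℤ) : F :=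
  normEDS (psi2Val W x y) (W.Ψ₃.eval x) (W.preΨ₄.eval x) n

variable {W}

theorem psi2Val_sq {x y : F} (h : W.Equation x y) : psi2Val W x y ^ 2 = W.Ψ₂Sq.eval x := by
  have h1 : W.Ψ₂Sq.eval x = (C W.Ψ₂Sq : Polynomial (Polynomial F)).evalEval x y := by
    simp [evalEval]
  rw [h1, C_Ψ₂Sq, ψ₂]
  have h2 : W.polynomial.evalEval x y = 0 := h
  simp only [evalEval_sub, evalEval_pow, evalEval_mul, h2, evalEval_polynomialY, mul_zero,
    sub_zero, psi2Val]

theorem eval_preΨ (x : F) (n : ℤ) :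
    (W.preΨ n).eval x =
      preNormEDS (W.Ψ₂Sq.eval x ^ 2) (W.Ψ₃.eval x) (W.preΨ₄.eval x) n := by
  have := map_preNormEDS (evalRingHom x) (W.Ψ₂Sq ^ 2) W.Ψ₃ W.preΨ₄ n
  simp only [coe_evalRingHom, eval_pow] at this
  rw [preΨ]
  exact this

theorem eval_ΨSq (x : F) (n : ℤ) :
    (W.ΨSq n).eval x = (W.preΨ n).eval x ^ 2 * if Even n then W.Ψ₂Sq.eval x else 1 := by
  rw [ΨSq]
  split_ifs <;> simp

theorem psiVal_eq {x y : F} (h : W.Equation x y) (n : ℤ) :
    psiVal W x y n = (W.preΨ n).eval x * if Even n then psi2Val W x y else 1 := by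
  rw [psiVal, normEDS, eval_preΨ, ← psi2Val_sq h, ← pow_mul]

theorem psiVal_sq {x y : F} (h : W.Equation x y) (n : ℤ) :
    psiVal W x y n ^ 2 = (W.ΨSq n).eval x := by
  rw [psiVal_eq h, eval_ΨSq, mul_pow]
  split_ifs
  · rw [psi2Val_sq h]
  · simp

theorem psiVal_eq_zero_iff {x y : F} (h : W.Equation x y) (n : ℤ) :
    psiVal W x y n = 0 ↔ (W.ΨSq n).eval x = 0 := by
  rw [← psiVal_sq h, sq_eq_zero_iff]

theorem eval_ΨSq_eq_zero_iff_of_odd (x : F) {n : ℤ} (hn : Odd n) :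
    (W.ΨSq n).eval x = 0 ↔ (W.preΨ n).eval x = 0 := by
  rw [eval_ΨSq, if_neg (Int.not_even_iff_odd.mpr hn), mul_one, sq_eq_zero_iff]

@[simp] theorem psiVal_zero (x y : F) : psiVal W x y 0 = 0 := normEDS_zero ..
@[simp] theorem psiVal_one (x y : F) : psiVal W x y 1 = 1 := normEDS_one ..
@[simp] theorem psiVal_two (x y : F) : psiVal W x y 2 = psi2Val W x y := normEDS_two ..
@[simp] theorem psiVal_three (x y : F) : psiVal W x y 3 = W.Ψ₃.eval x := normEDS_three ..
@[simp] theorem psiVal_four (x y : F) :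
    psiVal W x y 4 = W.preΨ₄.eval x * psi2Val W x y := normEDS_four ..
theorem psiVal_neg (x y : F) (n : ℤ) : psiVal W x y (-n) = -psiVal W x y n := normEDS_neg ..

/-- If `ψ₂(x,y) = 0` then all even-indexed values vanish. -/
theorem psiVal_two_mul_eq_zero {x y : F} (h2 : psiVal W x y 2 = 0) (k : ℤ) :
    psiVal W x y (2 * k) = 0 := by
  rw [psiVal_two] at h2
  rw [psiVal, normEDS, if_pos (even_two_mul k), h2, mul_zero]

end Bridge

section Core

variable {F : Type*} [Field F] [DecidableEq F] {W : Affine F}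

/-- **Core of the final iff**, against abstract inputs:
* `happ`: rank of apparition for the values `ΨSq_k(x)`;
* `hL3`: if `ΨSq_k(x) ≠ 0` for `1 ≤ k ≤ n` then `n • P ≠ 0`;
* `hL4`: if moreover `ΨSq_(n+1)(x) = 0` then `(n + 1) • P = 0`. -/
theorem nsmul_eq_zero_iff_core {x y : F} (h : W.Nonsingular x y)
    (happ : ∀ m : ℕ, 2 ≤ m → (W.ΨSq (m : ℤ)).eval x = 0 →
      (∀ k : ℕ, 1 ≤ k → k < m → (W.ΨSq (k : ℤ)).eval x ≠ 0) →
      ∀ n : ℕ, ((W.ΨSq (n : ℤ)).eval x = 0 ↔ m ∣ n))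
    (hL3 : ∀ n : ℕ, 1 ≤ n → (∀ k : ℕ, 1 ≤ k → k ≤ n → (W.ΨSq (k : ℤ)).eval x ≠ 0) →
      n • Point.some x y h ≠ 0)
    (hL4 : ∀ n : ℕ, (∀ k : ℕ, 1 ≤ k → k ≤ n → (W.ΨSq (k : ℤ)).eval x ≠ 0) →
      (W.ΨSq ((n + 1 : ℕ) : ℤ)).eval x = 0 → (n + 1) • Point.some x y h = 0)
    (n : ℕ) (hn : 1 ≤ n) :
    n • Point.some x y h = 0 ↔ (W.ΨSq (n : ℤ)).eval x = 0 := by
  classical
  -- the key: whenever some zero exists at an index in `[1, N]`, the first zero `m` has `m • P = 0`,
  -- `k • P ≠ 0` for `1 ≤ k < m`, and the zeros are exactly the multiples of `m`.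
  have key : ∀ N : ℕ, 1 ≤ N → (W.ΨSq (N : ℤ)).eval x = 0 →
      ∃ m : ℕ, 2 ≤ m ∧ m ≤ N ∧ m • Point.some x y h = 0 ∧
        (∀ k : ℕ, 1 ≤ k → k < m → k • Point.some x y h ≠ 0) ∧
        (∀ n : ℕ, ((W.ΨSq (n : ℤ)).eval x = 0 ↔ m ∣ n)) := by
    intro N hN hN0
    have hex : ∃ k : ℕ, 1 ≤ k ∧ (W.ΨSq (k : ℤ)).eval x = 0 := ⟨N, hN, hN0⟩
    set m := Nat.find hex with hm_def
    have hm : 1 ≤ m ∧ (W.ΨSq (m : ℤ)).eval x = 0 := Nat.find_spec hex
    have hmin : ∀ k : ℕ, 1 ≤ k → k < m → (W.ΨSq (k : ℤ)).eval x ≠ 0 := by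
      intro k hk hkm h0
      exact Nat.find_min hex hkm ⟨hk, h0⟩
    have hm2 : 2 ≤ m := by
      rcases Nat.lt_or_ge m 2 with h' | h'
      · have h1 : m = 1 := by omega
        have := hm.2
        rw [h1] at this
        simp at this
      · exact h'
    have hmN : m ≤ N := Nat.find_min' hex ⟨hN, hN0⟩
    refine ⟨m, hm2, hmN, ?_, ?_, happ m hm2 hm.2 hmin⟩
    · have := hL4 (m - 1) (fun k hk hkm => hmin k hk (by omega))
        (by rw [show m - 1 + 1 = m by omega]; exact hm.2)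
      rwa [show m - 1 + 1 = m by omega] at this
    · intro k hk hkm
      exact hL3 k hk (fun j hj hjk => hmin j hj (by omega))
  constructor
  · intro hP
    by_contra hne
    -- is there a zero at some index in `[1, n]`?
    by_cases hz : ∃ k : ℕ, 1 ≤ k ∧ k ≤ n ∧ (W.ΨSq (k : ℤ)).eval x = 0
    · obtain ⟨k, hk1, hkn, hk0⟩ := hz
      obtain ⟨m, hm2, hmk, hmP, hmin, hiff⟩ := key k hk1 hk0
      -- `m ∣ n` since `m` is the exact order
      have hr : (n % m) • Point.some x y h = 0 := by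
        have hdecomp : n = m * (n / m) + n % m := (Nat.div_add_mod n m).symm
        have : n • Point.some x y h =
            (n / m) • (m • Point.some x y h) + (n % m) • Point.some x y h := by
          conv_lhs => rw [hdecomp]
          rw [add_nsmul, mul_nsmul]
        rw [hP, hmP, nsmul_zero, zero_add] at this
        exact this.symm
      have hmod : n % m = 0 := by
        by_contra hne'
        exact hmin (n % m) (Nat.pos_of_ne_zero hne') (Nat.mod_lt _ (by omega)) hr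
      exact hne ((hiff n).mpr (Nat.dvd_of_mod_eq_zero hmod))
    · exact hL3 n hn (fun k hk hkn h0 => hz ⟨k, hk, hkn, h0⟩) hP
  · intro h0
    obtain ⟨m, hm2, hmn, hmP, hmin, hiff⟩ := key n hn h0
    obtain ⟨q, rfl⟩ := (hiff n).mp h0
    rw [mul_nsmul, hmP, nsmul_zero]

end Core

end Fermat.Agent.DivPoly.Torsion
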