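import Fermat.Agent.DivPoly.Torsion
import Fermat.Agent.DivPoly.WardFinal

/-!
# Torsion points and division polynomials: the final `iff`, hypothesis-free (A1b FINAL)

For a nonsingular point `P = (x, y)` of a Weierstrass curve over a field (any characteristic):
* `nsmul_eq_zero_iff`      : for `n ≥ 1`, `n • P = 0 ↔ (W.ΨSq n).eval x = 0`;
* `zsmul_eq_zero_iff`      : for `n : ℤ`, `n • P = 0 ↔ (W.ΨSq n).eval x = 0`;
* `nsmul_eq_zero_iff_preΨ` : for odd `n`, `n • P = 0 ↔ (W.preΨ n).eval x = 0`;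
* `nsmul_eq_zero_iff_preΨ'`: the same with the `ℕ`-indexed `W.preΨ' n` (= `Count.TorsionIff`);
* `preΨ_ne_zero_of_two_torsion` : if the curve has a nonsingular affine point with `ψ₂ = 0`, all
  odd-indexed `W.preΨ n` are nonzero polynomials (any characteristic).
-/

set_option autoImplicit false

open WeierstrassCurve WeierstrassCurve.Affine Polynomial

namespace Fermat.Agent.DivPoly.Torsion

variable {F : Type*} [Field F] {W : Affine F}

/-- Ward's relation for the values `ψ_n(x, y)`. -/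
theorem wardRel_psiVal (x y : F) : WardRel (psiVal W x y) := fun p q =>
  WardFinal.normEDS_rel _ _ _ p q

/-- The `m = 2` family for `W.preΨ`. -/
theorem eds2 (W : Affine F) : Link.EDS2 W := WardFinal.eds2 W

/-- If the curve has a nonsingular affine point of order two, every odd-indexed `preΨ` is
nonzero at its `x`-coordinate. -/
theorem eval_preΨ_ne_zero_of_two_torsion {x y : F} (h : W.Nonsingular x y)
    (h2 : 2 * y + W.a₁ * x + W.a₃ = 0) {n : ℤ} (hn : Odd n) : (W.preΨ n).eval x ≠ 0 :=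
  eval_preΨ_ne_zero_of_psi2_eq_zero h (wardRel_psiVal x y) h2 hn

/-- If the curve has a nonsingular affine point of order two, every odd-indexed `preΨ` is a
nonzero polynomial (any characteristic). -/
theorem preΨ_ne_zero_of_two_torsion {x y : F} (h : W.Nonsingular x y)
    (h2 : 2 * y + W.a₁ * x + W.a₃ = 0) {n : ℤ} (hn : Odd n) : W.preΨ n ≠ 0 :=
  preΨ_ne_zero_of_psi2_eq_zero h (wardRel_psiVal x y) h2 hn

variable [DecidableEq F]

/-- **Final iff.** `n • P = 0 ↔ ΨSq_n(x) = 0` for `n ≥ 1`. -/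
theorem nsmul_eq_zero_iff {x y : F} (h : W.Nonsingular x y) (n : ℕ) (hn : 1 ≤ n) :
    n • Point.some x y h = 0 ↔ (W.ΨSq (n : ℤ)).eval x = 0 :=
  nsmul_eq_zero_iff_of (eds2 W) h (wardRel_psiVal x y) n hn

/-- **Final iff**, integer multiples. -/
theorem zsmul_eq_zero_iff {x y : F} (h : W.Nonsingular x y) (n : ℤ) :
    n • Point.some x y h = 0 ↔ (W.ΨSq n).eval x = 0 :=
  zsmul_eq_zero_iff_of (eds2 W) h (wardRel_psiVal x y) n

/-- **Final iff for odd `n`**: `n • P = 0 ↔ preΨ_n(x) = 0`. -/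
theorem nsmul_eq_zero_iff_preΨ {x y : F} (h : W.Nonsingular x y) {n : ℕ} (hn : Odd n) :
    n • Point.some x y h = 0 ↔ (W.preΨ (n : ℤ)).eval x = 0 :=
  nsmul_eq_zero_iff_preΨ_of (eds2 W) h (wardRel_psiVal x y) hn

/-- **Final iff for odd `n`**, with the `ℕ`-indexed `preΨ'`. -/
theorem nsmul_eq_zero_iff_preΨ' {x y : F} (h : W.Nonsingular x y) {n : ℕ} (hn : Odd n) :
    n • Point.some x y h = 0 ↔ (W.preΨ' n).eval x = 0 :=
  nsmul_eq_zero_iff_preΨ'_of (eds2 W) h (wardRel_psiVal x y) hn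

/-- The shape `Count.TorsionIff W n` (unfolded). -/
theorem torsionIff (W : Affine F) {n : ℕ} (hn : Odd n) :
    ∀ (x y : F) (h : W.Nonsingular x y),
      n • Point.some x y h = 0 ↔ (W.preΨ' n).eval x = 0 :=
  fun _ _ h => nsmul_eq_zero_iff_preΨ' h hn

/-- The exact order of `P` is the first zero of `k ↦ ΨSq_k(x)`. -/
theorem addOrderOf_eq_iff {x y : F} (h : W.Nonsingular x y) {m : ℕ} (hm : 2 ≤ m) :
    addOrderOf (Point.some x y h) = m ↔
      (W.ΨSq (m : ℤ)).eval x = 0 ∧ ∀ k : ℕ, 1 ≤ k → k < m → (W.ΨSq (k : ℤ)).eval x ≠ 0 := by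
  constructor
  · rintro rfl
    refine ⟨(nsmul_eq_zero_iff h _ (by omega)).mp (addOrderOf_nsmul_eq_zero _), ?_⟩
    intro k hk hkm h0
    have := (nsmul_eq_zero_iff h k hk).mpr h0
    have hd := addOrderOf_dvd_of_nsmul_eq_zero this
    have := Nat.le_of_dvd (by omega) hd
    omega
  · rintro ⟨h0, hmin⟩
    exact Link.addOrderOf_eq_of_first_zero (eds2 W) h hm h0 hmin

end Fermat.Agent.DivPoly.Torsion
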