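import Fermat.Agent.DivPoly.TorsionCore
import Fermat.Agent.DivPoly.Apparition
import Fermat.Agent.DivPoly.Nondeg

/-!
# Torsion points and division polynomials: plugging rank of apparition into the core

`nsmul_eq_zero_iff_of_rel`: the final iff, given
* `hrel`: Ward's relation `REL(p, q)` for the values `ψ_n(x, y)` (from A1a), and
* `hL3`, `hL4`: the two outputs of the link with the group law.
-/

set_option autoImplicit false

open WeierstrassCurve WeierstrassCurve.Affine Polynomial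

namespace Fermat.Agent.DivPoly.Torsion

variable {F : Type*} [Field F] {W : Affine F}

/-- Ward's relation `REL(p, q)` for a sequence. -/
def WardRel (A : ℤ → F) : Prop :=
  ∀ p q : ℤ, A (p + q) * A (p - q) =
    A (p + 1) * A (p - 1) * A q ^ 2 - A (q + 1) * A (q - 1) * A p ^ 2

/-- Rank of apparition for the values `ΨSq_k(x)` at a nonsingular point, from Ward's relation. -/
theorem happ_of_rel {x y : F} (h : W.Nonsingular x y) (hrel : WardRel (psiVal W x y))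
    (m : ℕ) (hm2 : 2 ≤ m) (hm : (W.ΨSq (m : ℤ)).eval x = 0)
    (hmin : ∀ k : ℕ, 1 ≤ k → k < m → (W.ΨSq (k : ℤ)).eval x ≠ 0) (n : ℕ) :
    (W.ΨSq (n : ℤ)).eval x = 0 ↔ m ∣ n := by
  have hN23 : ¬(psi2Val W x y = 0 ∧ W.Ψ₃.eval x = 0) := Nondeg.not_psi2_psi3 W h
  have hN34 : ¬(W.Ψ₃.eval x = 0 ∧ W.preΨ₄.eval x * psi2Val W x y = 0) :=
    Nondeg.not_psi3_psi4 W h
  have hm' : normEDS (psi2Val W x y) (W.Ψ₃.eval x) (W.preΨ₄.eval x) (m : ℤ) = 0 :=
    (psiVal_eq_zero_iff h.1 m).mpr hm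
  have hmin' : ∀ k : ℕ, 1 ≤ k → k < m →
      normEDS (psi2Val W x y) (W.Ψ₃.eval x) (W.preΨ₄.eval x) (k : ℤ) ≠ 0 := fun k hk hkm h0 =>
    hmin k hk hkm ((psiVal_eq_zero_iff h.1 k).mp h0)
  have key := Apparition.normEDS_zero_iff_dvd hrel hN23 hN34 hm2 hm' hmin' (n : ℤ)
  rw [← psiVal_eq_zero_iff h.1 n]
  exact key.trans Int.natCast_dvd_natCast

/-- At a nonsingular point with `ψ₂(x, y) = 0` (a point of order two), no odd-indexed division
polynomial vanishes. In particular `W.preΨ n ≠ 0` as a polynomial (any characteristic), as soon as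
the curve has a nonsingular point of order two. -/
theorem eval_preΨ_ne_zero_of_psi2_eq_zero {x y : F} (h : W.Nonsingular x y)
    (hrel : WardRel (psiVal W x y)) (h2 : psi2Val W x y = 0) {n : ℤ} (hn : Odd n) :
    (W.preΨ n).eval x ≠ 0 := by
  have hN23 : ¬(psi2Val W x y = 0 ∧ W.Ψ₃.eval x = 0) := Nondeg.not_psi2_psi3 W h
  have hN34 : ¬(W.Ψ₃.eval x = 0 ∧ W.preΨ₄.eval x * psi2Val W x y = 0) :=
    Nondeg.not_psi3_psi4 W h
  have hm' : normEDS (psi2Val W x y) (W.Ψ₃.eval x) (W.preΨ₄.eval x) ((2 : ℕ) : ℤ) = 0 := by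
    simpa using h2
  have hmin' : ∀ k : ℕ, 1 ≤ k → k < 2 →
      normEDS (psi2Val W x y) (W.Ψ₃.eval x) (W.preΨ₄.eval x) (k : ℤ) ≠ 0 := by
    intro k hk hk2
    have : k = 1 := by omega
    subst this
    simp
  have key := Apparition.normEDS_zero_iff_dvd hrel hN23 hN34 (le_refl 2) hm' hmin' n
  intro h0
  have : psiVal W x y n = 0 := by
    rw [psiVal_eq h.1, h0, zero_mul]
  have hdvd : ((2 : ℕ) : ℤ) ∣ n := key.mp this
  have : Even n := by
    obtain ⟨c, hc⟩ := hdvd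
    exact ⟨c, by rw [hc]; push_cast; ring⟩
  exact (Int.not_even_iff_odd.mpr hn) this

theorem preΨ_ne_zero_of_psi2_eq_zero {x y : F} (h : W.Nonsingular x y)
    (hrel : WardRel (psiVal W x y)) (h2 : psi2Val W x y = 0) {n : ℤ} (hn : Odd n) :
    W.preΨ n ≠ 0 := by
  intro h0
  apply eval_preΨ_ne_zero_of_psi2_eq_zero h hrel h2 hn
  rw [h0, eval_zero]

variable [DecidableEq F]

/-- The final iff, from Ward's relation and the two outputs of the link with the group law. -/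
theorem nsmul_eq_zero_iff_of_rel {x y : F} (h : W.Nonsingular x y)
    (hrel : WardRel (psiVal W x y))
    (hL3 : ∀ n : ℕ, 1 ≤ n → (∀ k : ℕ, 1 ≤ k → k ≤ n → (W.ΨSq (k : ℤ)).eval x ≠ 0) →
      n • Point.some x y h ≠ 0)
    (hL4 : ∀ n : ℕ, (∀ k : ℕ, 1 ≤ k → k ≤ n → (W.ΨSq (k : ℤ)).eval x ≠ 0) →
      (W.ΨSq ((n + 1 : ℕ) : ℤ)).eval x = 0 → (n + 1) • Point.some x y h = 0)
    (n : ℕ) (hn : 1 ≤ n) :
    n • Point.some x y h = 0 ↔ (W.ΨSq (n : ℤ)).eval x = 0 :=
  nsmul_eq_zero_iff_core h (happ_of_rel h hrel) hL3 hL4 n hn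

end Fermat.Agent.DivPoly.Torsion
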